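import Fermat.Agent.S38.H953.Unframed
import Fermat.Agent.S56.H606.UnrBound

/-!
# Route T (Ihara avoidance), Galois side: from the bound on the nose to the bound modulo
coboundaries (helper953)

If `ρ̄` is absolutely irreducible and `ρ̄(σ)` is SCALAR for every `σ ∈ D` (pivot primes), then all
coboundaries vanish on `D`, the space `B¹` of coboundaries has dimension `3`, and

  `RelSel 𝒪 ρbar 𝒟 D r  ⟹  RelSelCob 𝒪 ρbar 𝒟 D (r − 3)`

(`relSelCob_of_relSel`): the relative tangent space of the UNFRAMED ring has dimension `≤ r − 3`.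

Nothing unproved in this file.
-/

set_option autoImplicit false
set_option linter.unusedSectionVars false
set_option linter.unusedVariables false
set_option linter.style.haveILetI false

namespace Fermat.Agent.S38.H953

noncomputable section

open IsLocalRing
open Fermat.Agent.S56 Fermat.Agent.S56.H716 Fermat.Agent.S56.H596

section Cob

variable {k : Type} [Field k] (ρbar : ResidualGaloisRep k)

/-- The coboundary map `m ↦ (σ ↦ ρ̄(σ) m ρ̄(σ)⁻¹ − m)`, as a linear map. -/
def cobMap : Module.End k ρbar.V →ₗ[k] (GQ → Module.End k ρbar.V) where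
  toFun m := Fermat.Agent.S56.H606.cob ρbar m
  map_add' a b := by
    funext σ
    rw [Pi.add_apply, H606.cob_apply, H606.cob_apply, H606.cob_apply, mul_add, add_mul]
    abel
  map_smul' r a := by
    funext σ
    rw [Pi.smul_apply, H606.cob_apply, H606.cob_apply, RingHom.id_apply, mul_smul_comm,
      smul_mul_assoc, smul_sub]

theorem cobMap_apply (m : Module.End k ρbar.V) (σ : GQ) :
    cobMap ρbar m σ = ρbar.ρ σ * m * ρbar.ρ σ⁻¹ - m := rfl

theorem isAdCoboundary_iff_mem_range (c : GQ → Module.End k ρbar.V) :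
    IsAdCoboundary ρbar c ↔ c ∈ LinearMap.range (cobMap ρbar) := by
  constructor
  · rintro ⟨m, hm⟩
    exact ⟨m, funext fun σ => (hm σ).symm⟩
  · rintro ⟨m, rfl⟩
    exact ⟨m, fun σ => rfl⟩

/-- **Schur**: the kernel of the coboundary map consists of scalars. -/
theorem ker_cobMap_le (habs : ρbar.IsAbsolutelyIrreducible) :
    LinearMap.ker (cobMap ρbar) ≤ Submodule.span k {(1 : Module.End k ρbar.V)} := by
  intro m hm
  rw [LinearMap.mem_ker] at hm
  obtain ⟨rb, hrb, ⟨e⟩⟩ := Fermat.Agent.S53.exists_toRes ρbar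
  let E : ρbar.V ≃ₗ[k] (Fin 2 → k) := e.toLinearEquiv
  have hE : ∀ σ v, E (ρbar.ρ σ v) = (rb σ).mulVec (E v) := fun σ v => e.map_apply σ v
  have hcomm : ∀ σ, m * ρbar.ρ σ = ρbar.ρ σ * m := by
    intro σ
    have h1 := congrFun hm σ
    rw [cobMap_apply, Pi.zero_apply, sub_eq_zero] at h1
    have h2 : ρbar.ρ σ⁻¹ * ρbar.ρ σ = 1 := by rw [← map_mul, inv_mul_cancel, map_one]
    calc m * ρbar.ρ σ = ρbar.ρ σ * m * ρbar.ρ σ⁻¹ * ρbar.ρ σ := by rw [h1]
      _ = ρbar.ρ σ * m := by rw [mul_assoc, h2, mul_one]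
  have hX : ∀ σ, (matToEnd E).symm m * rb σ = rb σ * (matToEnd E).symm m := by
    intro σ
    apply (matToEnd E).injective
    rw [map_mul, map_mul, RingEquiv.apply_symm_apply, ← rho_eq_matToEnd hE]
    exact hcomm σ
  obtain ⟨c, hc⟩ := Fermat.Agent.S53.schur_matrix ρbar habs rb hrb ⟨e⟩ _ hX
  have hm' : m = c • (1 : Module.End k ρbar.V) := by
    have h1 := congrArg (matToEnd E) hc
    rw [RingEquiv.apply_symm_apply] at h1
    rw [h1]
    refine LinearMap.ext fun v => ?_
    rw [matToEnd_apply, Matrix.smul_mulVec, Matrix.one_mulVec, map_smul,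
      LinearEquiv.symm_apply_apply]
    rfl
  rw [hm']
  exact Submodule.smul_mem _ _ (Submodule.subset_span rfl)

/-- The space of coboundaries has dimension `≥ 3`. -/
theorem three_le_finrank_range_cobMap (habs : ρbar.IsAbsolutelyIrreducible) :
    3 ≤ Module.finrank k (LinearMap.range (cobMap ρbar)) := by
  haveI : Module.Finite k ρbar.V := Module.finite_of_finrank_eq_succ ρbar.finrank_eq
  have h1 := LinearMap.finrank_range_add_finrank_ker (cobMap ρbar)
  have h2 : Module.finrank k (Module.End k ρbar.V) = 4 := by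
    rw [Module.finrank_linearMap, ρbar.finrank_eq]
  have h3 : Module.finrank k (LinearMap.ker (cobMap ρbar)) ≤ 1 := by
    calc Module.finrank k (LinearMap.ker (cobMap ρbar))
        ≤ Module.finrank k (Submodule.span k {(1 : Module.End k ρbar.V)}) :=
          Submodule.finrank_mono (ker_cobMap_le ρbar habs)
      _ ≤ 1 := by
          have := finrank_span_le_card (R := k) ({(1 : Module.End k ρbar.V)} : Set _)
          simpa using this
  omega

end Cob

section Glue

variable {𝒪 : Type} [CommRing 𝒪] [IsLocalRing 𝒪]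
  {ρbar : ResidualGaloisRep (ResidueField 𝒪)}

/-- **From the bound on the nose to the bound modulo coboundaries** (pivot case: `ρ̄` scalar on
`D`). -/
theorem relSelCob_of_relSel (habs : ρbar.IsAbsolutelyIrreducible) {𝒟 : DefCond 𝒪} {D : Set GQ}
    (hscal : ∀ σ ∈ D, ∀ m : Module.End (ResidueField 𝒪) ρbar.V,
      ρbar.ρ σ * m * ρbar.ρ σ⁻¹ = m)
    {r : ℕ} (h : RelSel 𝒪 ρbar 𝒟 D r) : RelSelCob 𝒪 ρbar 𝒟 D (r - 3) := by
  classical
  obtain ⟨T, hTfin, hTr, hT⟩ := h
  haveI := hTfin
  set B1 := LinearMap.range (cobMap ρbar) with hB1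
  -- the coboundaries lie in `T`
  have hB1T : B1 ≤ T := by
    rintro _ ⟨m, rfl⟩
    refine hT _ (Or.inr ⟨H606.isAdCocycle_cob ρbar m, ⟨m, fun σ => rfl⟩⟩) (fun σ hσ => ?_)
    rw [cobMap_apply, hscal σ hσ m, sub_self]
  obtain ⟨C, hC⟩ := Submodule.exists_isCompl B1
  have hsplit : ∀ c ∈ T, ∃ t ∈ T ⊓ C, IsAdCoboundary ρbar (c - t) := by
    intro c hc
    have hc' : c ∈ B1 ⊔ C := by rw [hC.sup_eq_top]; trivial
    obtain ⟨b, hb, t, ht, hbt⟩ := Submodule.mem_sup.mp hc'
    have htT : t ∈ T := by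
      have : t = c - b := by rw [← hbt]; abel
      rw [this]
      exact T.sub_mem hc (hB1T hb)
    refine ⟨t, ⟨htT, ht⟩, ?_⟩
    have : c - t = b := by rw [← hbt]; abel
    rw [this]
    exact (isAdCoboundary_iff_mem_range ρbar b).2 hb
  have hsup : B1 ⊔ (T ⊓ C) = T := by
    apply le_antisymm
    · exact sup_le hB1T inf_le_left
    · intro c hc
      obtain ⟨t, ht, hcob⟩ := hsplit c hc
      have h1 : c = (c - t) + t := by abel
      rw [h1]
      exact Submodule.add_mem _
        (Submodule.mem_sup_left ((isAdCoboundary_iff_mem_range ρbar _).1 hcob))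
        (Submodule.mem_sup_right ht)
  have hinf : B1 ⊓ (T ⊓ C) = ⊥ := by
    rw [eq_bot_iff]
    intro c hc
    have : c ∈ B1 ⊓ C := ⟨hc.1, hc.2.2⟩
    rwa [hC.inf_eq_bot] at this
  haveI : Module.Finite (ResidueField 𝒪) B1 := Module.Finite.of_injective
    (Submodule.inclusion hB1T) (Submodule.inclusion_injective hB1T)
  haveI : Module.Finite (ResidueField 𝒪) ↥(T ⊓ C) := Module.Finite.of_injective
    (Submodule.inclusion (inf_le_left : T ⊓ C ≤ T)) (Submodule.inclusion_injective _)
  have hdim := Submodule.finrank_sup_add_finrank_inf_eq B1 (T ⊓ C)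
  rw [hsup, hinf, finrank_bot, add_zero] at hdim
  have h3 : 3 ≤ Module.finrank (ResidueField 𝒪) B1 := three_le_finrank_range_cobMap ρbar habs
  have h4 : Module.finrank (ResidueField 𝒪) ↥(T ⊓ C) ≤ r - 3 := by omega
  refine ⟨T ⊓ C, inferInstance, h4, fun c hc hD => ?_⟩
  exact hsplit c (hT c (Or.inl hc) hD)

end Glue

end

end Fermat.Agent.S38.H953
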