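import Fermat.Agent.S38.H953.Frame

/-!
# Route T (Ihara avoidance), Galois side: the FRAMED dictionary (helper953)

`DQ` a universal deformation ring of type `𝒟`, `F : UFrame DQ` a matrix frame,
`R□ = DQ.R⟦Y₀, Y₁, Y₂⟧`, `r□ = framedRep F`.  To a tangent vector `ψ : R□ → k[ε]` we attach the
cocycle `frCoc F ψ : σ ↦ (ε-part of ψ(r□ σ)) · ρ̄(σ)⁻¹`.

Main results:
* `frCoc_type`      : `frCoc F ψ` is a tangent cocycle of type `𝒟`, or a cocycle which is a
  coboundary;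
* `frCoc_eq_zero`   : `frCoc F ψ σ = 0` as soon as `ψ` has no `ε`-part on the entries of `r□ σ`;
* `frCoc_injective` : `ψ ↦ frCoc F ψ` is injective ON THE NOSE (the framing variables absorb the
  coboundaries).

Nothing unproved in this file.
-/

set_option autoImplicit false
set_option linter.unusedSectionVars false
set_option linter.unusedVariables false
set_option linter.style.haveILetI false

namespace Fermat.Agent.S38.H953

noncomputable section

open IsLocalRing TrivSqZeroExt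
open Fermat.Agent.S56 Fermat.Agent.S56.H716 Fermat.Agent.S56.H596

/-! ### Matrices over the dual numbers -/

section DualAux

variable {k : Type} [Field k]

theorem dmk_one_zero : dmk (1 : Matrix (Fin 2) (Fin 2) k) 0 = 1 := by
  apply dualMat_ext
  · rw [m0_dmk, m0_one]
  · rw [m1_dmk, m1_one]

theorem m0_unit_inv (P : (Matrix (Fin 2) (Fin 2) (DualNumber k))ˣ)
    (h : m0 (P : Matrix (Fin 2) (Fin 2) (DualNumber k)) = 1) :
    m0 ((P⁻¹ : (Matrix (Fin 2) (Fin 2) (DualNumber k))ˣ) :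
      Matrix (Fin 2) (Fin 2) (DualNumber k)) = 1 := by
  have h1 := congrArg m0 P.mul_inv
  rw [m0_mul, h, one_mul, m0_one] at h1
  exact h1

theorem m1_unit_inv (P : (Matrix (Fin 2) (Fin 2) (DualNumber k))ˣ)
    (h : m0 (P : Matrix (Fin 2) (Fin 2) (DualNumber k)) = 1) :
    m1 ((P⁻¹ : (Matrix (Fin 2) (Fin 2) (DualNumber k))ˣ) :
      Matrix (Fin 2) (Fin 2) (DualNumber k)) =
      - m1 (P : Matrix (Fin 2) (Fin 2) (DualNumber k)) := by
  have h1 := congrArg m1 P.mul_inv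
  rw [m1_mul, h, one_mul, m0_unit_inv P h, mul_one, m1_one] at h1
  exact eq_neg_of_add_eq_zero_left h1

theorem m0_conj (P : (Matrix (Fin 2) (Fin 2) (DualNumber k))ˣ)
    (h : m0 (P : Matrix (Fin 2) (Fin 2) (DualNumber k)) = 1)
    (X : Matrix (Fin 2) (Fin 2) (DualNumber k)) :
    m0 ((P : Matrix (Fin 2) (Fin 2) (DualNumber k)) * X *
      ((P⁻¹ : (Matrix (Fin 2) (Fin 2) (DualNumber k))ˣ) :
        Matrix (Fin 2) (Fin 2) (DualNumber k))) = m0 X := by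
  rw [m0_mul, m0_mul, h, m0_unit_inv P h, one_mul, mul_one]

theorem m1_conj (P : (Matrix (Fin 2) (Fin 2) (DualNumber k))ˣ)
    (h : m0 (P : Matrix (Fin 2) (Fin 2) (DualNumber k)) = 1)
    (X : Matrix (Fin 2) (Fin 2) (DualNumber k)) :
    m1 ((P : Matrix (Fin 2) (Fin 2) (DualNumber k)) * X *
      ((P⁻¹ : (Matrix (Fin 2) (Fin 2) (DualNumber k))ˣ) :
        Matrix (Fin 2) (Fin 2) (DualNumber k))) =
      m1 X + (m1 (P : Matrix (Fin 2) (Fin 2) (DualNumber k)) * m0 X -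
        m0 X * m1 (P : Matrix (Fin 2) (Fin 2) (DualNumber k))) := by
  rw [m1_mul, m1_mul, m0_mul, h, m0_unit_inv P h, m1_unit_inv P h, one_mul, one_mul, mul_one,
    mul_neg]
  abel

end DualAux

/-! ### Tangent vectors of the framed ring -/

section Core

variable {𝒪 : Type} [CommRing 𝒪] [IsDomain 𝒪] [IsDiscreteValuationRing 𝒪]
  [IsAdicComplete (maximalIdeal 𝒪) 𝒪]
  {ρbar : ResidualGaloisRep (ResidueField 𝒪)} {𝒟 : DefCond 𝒪}
  {DQ : GaloisRep.DeformationRingData 𝒪 ρbar 𝒟}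

attribute [local instance] Fermat.Agent.S56.tanAlgebra

/-- The restriction of a tangent vector of `R□ = DQ.R⟦Y⟧` to the constants. -/
def tanC (ψ : TanHom 𝒪 (MvPowerSeries (Fin 3) DQ.R)) : TanHom 𝒪 DQ.R :=
  { toRingHom := (ψ : MvPowerSeries (Fin 3) DQ.R →+* DualNumber (ResidueField 𝒪)).comp
      (MvPowerSeries.C : DQ.R →+* MvPowerSeries (Fin 3) DQ.R)
    commutes' := fun a => by
      have h := ψ.commutes a
      rw [MvPowerSeries.algebraMap_apply] at h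
      exact h }

@[simp] theorem tanC_apply (ψ : TanHom 𝒪 (MvPowerSeries (Fin 3) DQ.R)) (x : DQ.R) :
    tanC ψ x = ψ (MvPowerSeries.C x) := rfl

theorem fst_map_X (ψ : TanHom 𝒪 (MvPowerSeries (Fin 3) DQ.R)) (i : Fin 3) :
    TrivSqZeroExt.fst (ψ (MvPowerSeries.X i)) = 0 := by
  rw [← mem_maximalIdeal_dualNumber_iff]
  exact Fermat.Agent.S56.H966.map_mem_maximalIdeal
    (ψ : MvPowerSeries (Fin 3) DQ.R →+* DualNumber (ResidueField 𝒪)) (isLocalHom_tanHom ψ)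
    (Fermat.Agent.S53.H596.X_mem_maximalIdeal_mvPowerSeries i)

/-- The `ε`-part of the image of the framing matrix. -/
def frameZ (ψ : TanHom 𝒪 (MvPowerSeries (Fin 3) DQ.R)) :
    Matrix (Fin 2) (Fin 2) (ResidueField 𝒪) :=
  !![TrivSqZeroExt.snd (ψ (MvPowerSeries.X 0)), TrivSqZeroExt.snd (ψ (MvPowerSeries.X 1));
     TrivSqZeroExt.snd (ψ (MvPowerSeries.X 2)), 0]

theorem map_frameMat (ψ : TanHom 𝒪 (MvPowerSeries (Fin 3) DQ.R)) :
    (frameMat DQ.R).map (ψ : MvPowerSeries (Fin 3) DQ.R →+* DualNumber (ResidueField 𝒪)) =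
      dmk 1 (frameZ ψ) := by
  apply dualMat_ext
  · rw [m0_dmk]
    ext i j
    fin_cases i <;> fin_cases j <;> simp [frameMat, fst_map_X]
  · rw [m1_dmk]
    ext i j
    fin_cases i <;> fin_cases j <;> simp [frameMat, frameZ]

theorem unitsMap_frameUnit (ψ : TanHom 𝒪 (MvPowerSeries (Fin 3) DQ.R)) :
    Units.map (ψ : MvPowerSeries (Fin 3) DQ.R →+* DualNumber (ResidueField 𝒪)).mapMatrix.toMonoidHom
      (frameUnit DQ.R) = dunit (frameZ ψ) := by
  apply Units.ext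
  rw [coe_dunit, ← map_frameMat]
  rfl

/-- The matrix representation over `k[ε]` attached to a tangent vector of the framed ring. -/
def frRep (F : UFrame DQ) (ψ : TanHom 𝒪 (MvPowerSeries (Fin 3) DQ.R)) :
    GQ →* Matrix (Fin 2) (Fin 2) (DualNumber (ResidueField 𝒪)) :=
  Fermat.Agent.S53.mapRep
    (ψ : MvPowerSeries (Fin 3) DQ.R →+* DualNumber (ResidueField 𝒪)) (framedRep F)

/-- The matrix representation over `k[ε]` attached to the restriction to the constants. -/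
def cRep (F : UFrame DQ) (ψ : TanHom 𝒪 (MvPowerSeries (Fin 3) DQ.R)) :
    GQ →* Matrix (Fin 2) (Fin 2) (DualNumber (ResidueField 𝒪)) :=
  Fermat.Agent.S53.mapRep (tanC ψ : DQ.R →+* DualNumber (ResidueField 𝒪)) F.rR

/-- **The cocycle of a tangent vector of the framed ring.** -/
def frCoc (F : UFrame DQ) (ψ : TanHom 𝒪 (MvPowerSeries (Fin 3) DQ.R)) :
    GQ → Module.End (ResidueField 𝒪) ρbar.V :=
  coc ρbar F.E (frRep F ψ) F.rb

theorem frRep_apply (F : UFrame DQ) (ψ : TanHom 𝒪 (MvPowerSeries (Fin 3) DQ.R)) (σ : GQ) :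
    frRep F ψ σ = (dunit (frameZ ψ) : Matrix (Fin 2) (Fin 2) (DualNumber (ResidueField 𝒪))) *
      cRep F ψ σ * (((dunit (frameZ ψ))⁻¹ :
        (Matrix (Fin 2) (Fin 2) (DualNumber (ResidueField 𝒪)))ˣ) :
          Matrix (Fin 2) (Fin 2) (DualNumber (ResidueField 𝒪))) := by
  have h1 : (((dunit (frameZ ψ))⁻¹ : (Matrix (Fin 2) (Fin 2) (DualNumber (ResidueField 𝒪)))ˣ) :
      Matrix (Fin 2) (Fin 2) (DualNumber (ResidueField 𝒪))) =
      (ψ : MvPowerSeries (Fin 3) DQ.R →+* DualNumber (ResidueField 𝒪)).mapMatrix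
        (((frameUnit DQ.R)⁻¹ : (Matrix (Fin 2) (Fin 2) (MvPowerSeries (Fin 3) DQ.R))ˣ) :
          Matrix (Fin 2) (Fin 2) (MvPowerSeries (Fin 3) DQ.R)) := by
    rw [← unitsMap_frameUnit ψ, ← map_inv]
    rfl
  have h2 : ((dunit (frameZ ψ) : (Matrix (Fin 2) (Fin 2) (DualNumber (ResidueField 𝒪)))ˣ) :
      Matrix (Fin 2) (Fin 2) (DualNumber (ResidueField 𝒪))) =
      (ψ : MvPowerSeries (Fin 3) DQ.R →+* DualNumber (ResidueField 𝒪)).mapMatrix
        (frameMat DQ.R) := by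
    rw [← unitsMap_frameUnit ψ]
    rfl
  have h3 : cRep F ψ σ =
      (ψ : MvPowerSeries (Fin 3) DQ.R →+* DualNumber (ResidueField 𝒪)).mapMatrix
        ((F.rR σ).map MvPowerSeries.C) := by
    ext i j <;> rfl
  rw [h1, h2, h3, ← map_mul, ← map_mul]
  rfl

theorem m0_dunit (M : Matrix (Fin 2) (Fin 2) (ResidueField 𝒪)) :
    m0 ((dunit M : (Matrix (Fin 2) (Fin 2) (DualNumber (ResidueField 𝒪)))ˣ) :
      Matrix (Fin 2) (Fin 2) (DualNumber (ResidueField 𝒪))) = 1 := by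
  rw [coe_dunit, m0_dmk]

theorem m1_dunit (M : Matrix (Fin 2) (Fin 2) (ResidueField 𝒪)) :
    m1 ((dunit M : (Matrix (Fin 2) (Fin 2) (DualNumber (ResidueField 𝒪)))ˣ) :
      Matrix (Fin 2) (Fin 2) (DualNumber (ResidueField 𝒪))) = M := by
  rw [coe_dunit, m1_dmk]

theorem m0_cRep (F : UFrame DQ) (ψ : TanHom 𝒪 (MvPowerSeries (Fin 3) DQ.R)) (σ : GQ) :
    m0 (cRep F ψ σ) = F.rb σ := by
  ext i j
  have h1 := congrFun (congrFun (F.hlift σ) i) j
  simp only [Matrix.map_apply] at h1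
  exact fst_tanHom_eq_of_map DQ.instIsLocalHom (tanC ψ) (F.rR σ i j) (F.rb σ i j) h1

theorem m0_frRep (F : UFrame DQ) (ψ : TanHom 𝒪 (MvPowerSeries (Fin 3) DQ.R)) (σ : GQ) :
    m0 (frRep F ψ σ) = F.rb σ := by
  rw [frRep_apply, m0_conj _ (m0_dunit _), m0_cRep]

theorem m1_frRep (F : UFrame DQ) (ψ : TanHom 𝒪 (MvPowerSeries (Fin 3) DQ.R)) (σ : GQ) :
    m1 (frRep F ψ σ) = m1 (cRep F ψ σ) + (frameZ ψ * F.rb σ - F.rb σ * frameZ ψ) := by
  rw [frRep_apply, m1_conj _ (m0_dunit _), m0_cRep, m1_dunit]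

theorem det_frRep (F : UFrame DQ) (ψ : TanHom 𝒪 (MvPowerSeries (Fin 3) DQ.R)) (σ : GQ) :
    (frRep F ψ σ).det = (cRep F ψ σ).det := by
  rw [frRep_apply, Matrix.det_units_conj]

theorem matCont_cRep (F : UFrame DQ) (ψ : TanHom 𝒪 (MvPowerSeries (Fin 3) DQ.R)) :
    Fermat.Agent.S53.MatCont (cRep F ψ) :=
  F.hrR.map _ (isLocalHom_tanHom (tanC ψ))

theorem matCont_frRep (F : UFrame DQ) (ψ : TanHom 𝒪 (MvPowerSeries (Fin 3) DQ.R)) :
    Fermat.Agent.S53.MatCont (frRep F ψ) :=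
  (matCont_framedRep F).map _ (isLocalHom_tanHom ψ)

/-- The cocycle of `ψ` is the cocycle of its restriction to the constants plus the coboundary of
`- frameZ ψ`. -/
theorem cocMat_frRep (F : UFrame DQ) (ψ : TanHom 𝒪 (MvPowerSeries (Fin 3) DQ.R)) (σ : GQ) :
    cocMat F.rb (frRep F ψ) σ = cocMat F.rb (cRep F ψ) σ +
      (frameZ ψ - F.rb σ * frameZ ψ * F.rb σ⁻¹) := by
  unfold cocMat
  rw [m1_frRep, add_mul, sub_mul, mul_assoc (frameZ ψ), rb_mul_inv, mul_one]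

/-! ### Vanishing -/

/-- The cocycle of `ψ` vanishes at `σ` as soon as `ψ` has no `ε`-part on the entries of the
framed universal matrix `r□(σ)`. -/
theorem frCoc_eq_zero (F : UFrame DQ) (ψ : TanHom 𝒪 (MvPowerSeries (Fin 3) DQ.R)) (σ : GQ)
    (h : ∀ i j, TrivSqZeroExt.snd (ψ (framedRep F σ i j)) = 0) : frCoc F ψ σ = 0 := by
  have hm1 : m1 (frRep F ψ σ) = 0 := by
    ext i j
    exact h i j
  show matToEnd F.E (cocMat F.rb (frRep F ψ) σ) = 0
  rw [cocMat_eq_zero_of_m1 σ hm1, map_zero]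

/-! ### Equivalences -/

theorem equiv_cRep (F : UFrame DQ) (ψ : TanHom 𝒪 (MvPowerSeries (Fin 3) DQ.R)) :
    Nonempty (GaloisRepAdic.Equiv
      (DQ.ρ.baseChangeAlong (tanC ψ : DQ.R →+* DualNumber (ResidueField 𝒪))
        (isLocalHom_tanHom (tanC ψ)))
      (Fermat.Agent.S53.toAdic (cRep F ψ) (matCont_cRep F ψ))) := by
  obtain ⟨e2⟩ := Fermat.Agent.S53.baseChangeAlong_toAdic
    (tanC ψ : DQ.R →+* DualNumber (ResidueField 𝒪)) (isLocalHom_tanHom (tanC ψ)) F.rR F.hrR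
  exact ⟨(F.eR.baseChangeAlong (tanC ψ : DQ.R →+* DualNumber (ResidueField 𝒪))
    (isLocalHom_tanHom (tanC ψ))).trans e2⟩

theorem isEquiv_cRep_frRep (F : UFrame DQ) (ψ : TanHom 𝒪 (MvPowerSeries (Fin 3) DQ.R)) :
    (Fermat.Agent.S53.toAdic (cRep F ψ) (matCont_cRep F ψ)).IsEquiv
      (Fermat.Agent.S53.toAdic (frRep F ψ) (matCont_frRep F ψ)) := by
  rw [Fermat.Agent.S53.toAdic_isEquiv_iff]
  refine ⟨dunit (frameZ ψ), fun σ => ?_⟩
  rw [frRep_apply, mul_assoc, Units.inv_mul, mul_one]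

theorem equiv_frRep (F : UFrame DQ) (ψ : TanHom 𝒪 (MvPowerSeries (Fin 3) DQ.R)) :
    Nonempty (GaloisRepAdic.Equiv
      (DQ.ρ.baseChangeAlong (tanC ψ : DQ.R →+* DualNumber (ResidueField 𝒪))
        (isLocalHom_tanHom (tanC ψ)))
      (Fermat.Agent.S53.toAdic (frRep F ψ) (matCont_frRep F ψ))) := by
  obtain ⟨e1⟩ := equiv_cRep F ψ
  obtain ⟨e2⟩ := isEquiv_cRep_frRep F ψ
  exact ⟨e1.trans e2⟩

theorem snd_tanC_eq_zero (ψ : TanHom 𝒪 (MvPowerSeries (Fin 3) DQ.R))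
    (hs : ¬ Function.Surjective (tanC ψ)) (x : DQ.R) : TrivSqZeroExt.snd (tanC ψ x) = 0 := by
  by_contra hx
  exact hs (tanHom_surjective_of_snd_ne_zero (tanC ψ) x hx)

theorem m1_cRep_eq_zero (F : UFrame DQ) (ψ : TanHom 𝒪 (MvPowerSeries (Fin 3) DQ.R))
    (hs : ¬ Function.Surjective (tanC ψ)) (σ : GQ) : m1 (cRep F ψ σ) = 0 := by
  ext i j
  exact snd_tanC_eq_zero ψ hs _

/-! ### Type of the cocycle -/

/-- **FR-DICT, type.**  The cocycle of a tangent vector of the framed ring is a tangent cocycle of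
type `𝒟`, or (trivial restriction to the constants) a cocycle which is a coboundary. -/
theorem frCoc_type (p : ℕ) (hp : p.Prime)
    (hdet : ∀ ρ' : GaloisRepAdic (DualNumber (ResidueField 𝒪)), 𝒟 ρ' → ρ'.DetIsCyclotomic p)
    (hbc : ∀ (φ : TanHom 𝒪 DQ.R)
      (hφ : IsLocalHom (φ : DQ.R →+* DualNumber (ResidueField 𝒪))), Function.Surjective φ →
      𝒟 (DQ.ρ.baseChangeAlong (φ : DQ.R →+* DualNumber (ResidueField 𝒪)) hφ))
    (F : UFrame DQ) (ψ : TanHom 𝒪 (MvPowerSeries (Fin 3) DQ.R)) :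
    IsTanCocycle 𝒪 ρbar 𝒟 (frCoc F ψ) ∨
      (IsAdCocycle ρbar (frCoc F ψ) ∧ IsAdCoboundary ρbar (frCoc F ψ)) := by
  by_cases hs : Function.Surjective (tanC ψ)
  · left
    have h𝒟 := hbc (tanC ψ) (isLocalHom_tanHom (tanC ψ)) hs
    obtain ⟨e3⟩ := equiv_frRep F ψ
    have hF : ∀ σ v, e3.toLinearEquiv
        ((DQ.ρ.baseChangeAlong (tanC ψ : DQ.R →+* DualNumber (ResidueField 𝒪))
          (isLocalHom_tanHom (tanC ψ))).ρ σ v) = (frRep F ψ σ).mulVec (e3.toLinearEquiv v) :=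
      fun σ v => e3.map_apply σ v
    have hdetσ : ∀ σ, TrivSqZeroExt.snd (frRep F ψ σ).det = 0 := fun σ =>
      snd_det_eq_zero p hp _ (hdet _ h𝒟) (frRep F ψ) e3.toLinearEquiv hF σ
    exact ⟨isAdCocycle_coc F.hE (m0_frRep F ψ) hdetσ (matCont_frRep F ψ), _,
      isLiftOf_coc F.hE (m0_frRep F ψ) (matCont_frRep F ψ) _ e3.toLinearEquiv hF, h𝒟⟩
  · right
    have hm1 := m1_cRep_eq_zero F ψ hs
    have hdetσ : ∀ σ, TrivSqZeroExt.snd (frRep F ψ σ).det = 0 := by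
      intro σ
      rw [det_frRep, snd_det, hm1, zero_mul, Matrix.trace_zero]
    refine ⟨isAdCocycle_coc F.hE (m0_frRep F ψ) hdetσ (matCont_frRep F ψ), ?_⟩
    refine ⟨matToEnd F.E (- frameZ ψ), fun σ => ?_⟩
    show matToEnd F.E (cocMat F.rb (frRep F ψ) σ) = _
    rw [cocMat_frRep, cocMat_eq_zero_of_m1 σ (hm1 σ), zero_add, rho_eq_matToEnd F.hE σ,
      rho_eq_matToEnd F.hE σ⁻¹, ← map_mul, ← map_mul, ← map_sub]
    congr 1
    rw [mul_neg, neg_mul, sub_neg_eq_add, add_comm, sub_eq_add_neg]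

/-! ### Injectivity -/

/-- Two tangent vectors of `DQ.R⟦Y⟧` which agree on the constants and on the variables are
equal. -/
theorem tanHom_ext_of_C_X (ψ ψ' : TanHom 𝒪 (MvPowerSeries (Fin 3) DQ.R))
    (hC : tanC ψ = tanC ψ')
    (hX : ∀ i, ψ (MvPowerSeries.X i) = ψ' (MvPowerSeries.X i)) : ψ = ψ' := by
  letI : Algebra DQ.R (DualNumber (ResidueField 𝒪)) :=
    (tanC ψ : DQ.R →+* DualNumber (ResidueField 𝒪)).toAlgebra
  let χ : MvPowerSeries (Fin 3) DQ.R →ₐ[DQ.R] DualNumber (ResidueField 𝒪) :=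
    { toRingHom := (ψ : MvPowerSeries (Fin 3) DQ.R →+* DualNumber (ResidueField 𝒪))
      commutes' := fun x => by
        show ψ (algebraMap DQ.R (MvPowerSeries (Fin 3) DQ.R) x) = tanC ψ x
        rw [← MvPowerSeries.c_eq_algebraMap]
        rfl }
  let χ' : MvPowerSeries (Fin 3) DQ.R →ₐ[DQ.R] DualNumber (ResidueField 𝒪) :=
    { toRingHom := (ψ' : MvPowerSeries (Fin 3) DQ.R →+* DualNumber (ResidueField 𝒪))
      commutes' := fun x => by
        show ψ' (algebraMap DQ.R (MvPowerSeries (Fin 3) DQ.R) x) = tanC ψ x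
        rw [hC, ← MvPowerSeries.c_eq_algebraMap]
        rfl }
  haveI : IsHausdorff (maximalIdeal (DualNumber (ResidueField 𝒪)))
      (DualNumber (ResidueField 𝒪)) :=
    (isAdicComplete_dualNumber (ResidueField 𝒪)).toIsHausdorff
  have h : χ = χ' := Fermat.Agent.S53.H596.algHom_ext_of_X
    (maximalIdeal (DualNumber (ResidueField 𝒪)))
    (fun i => (mem_maximalIdeal_dualNumber_iff _).2 (fst_map_X ψ i)) hX
  apply AlgHom.ext
  intro f
  exact DFunLike.congr_fun h f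

theorem map_residue_cRep (F : UFrame DQ) (ψ : TanHom 𝒪 (MvPowerSeries (Fin 3) DQ.R)) (σ : GQ) :
    (cRep F ψ σ).map (residue (DualNumber (ResidueField 𝒪))) =
      (F.rb σ).map (@ResidueField.map 𝒪 (DualNumber (ResidueField 𝒪)) _ _ _ _
        (algebraMap 𝒪 (DualNumber (ResidueField 𝒪))) (isLocalHom_tanAlgebra 𝒪)) := by
  ext i j
  simp only [Matrix.map_apply]
  rw [residue_dualNumber_eq]
  congr 1
  exact congrFun (congrFun (m0_cRep F ψ σ) i) j

theorem residual_isEquiv_tanC (F : UFrame DQ) (ψ : TanHom 𝒪 (MvPowerSeries (Fin 3) DQ.R)) :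
    (DQ.ρ.baseChangeAlong (tanC ψ : DQ.R →+* DualNumber (ResidueField 𝒪))
      (isLocalHom_tanHom (tanC ψ))).residual.IsEquiv
    (ρbar.baseChangeAlong
      (@ResidueField.map 𝒪 (DualNumber (ResidueField 𝒪)) _ _ _ _
        (algebraMap 𝒪 (DualNumber (ResidueField 𝒪))) (isLocalHom_tanAlgebra 𝒪))) := by
  haveI hlocD := isLocalHom_tanAlgebra 𝒪
  obtain ⟨e4⟩ := equiv_cRep F ψ
  obtain ⟨e5⟩ := Fermat.Agent.S53.residual_isEquiv_of_lift ρbar F.rb F.hrb ⟨F.e⟩ (cRep F ψ)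
    (matCont_cRep F ψ) (map_residue_cRep F ψ)
  exact ⟨e4.residual.trans e5⟩

/-- Equal cocycles have equal matrix representations. -/
theorem frRep_eq_of_frCoc_eq (F : UFrame DQ) (ψ ψ' : TanHom 𝒪 (MvPowerSeries (Fin 3) DQ.R))
    (h : frCoc F ψ = frCoc F ψ') (σ : GQ) : frRep F ψ σ = frRep F ψ' σ := by
  have hM : ∀ σ, cocMat F.rb (frRep F ψ) σ - cocMat F.rb (frRep F ψ') σ =
      F.rb σ * 0 * F.rb σ⁻¹ - 0 := by
    intro σ
    have h1 : matToEnd F.E (cocMat F.rb (frRep F ψ) σ) =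
        matToEnd F.E (cocMat F.rb (frRep F ψ') σ) := congrFun h σ
    rw [(matToEnd F.E).injective h1, sub_self, mul_zero, zero_mul, sub_self]
  have h1 := dmk_mul_eq_of_coboundary (m0_frRep F ψ) (m0_frRep F ψ') 0 hM σ
  rwa [dmk_one_zero, one_mul, mul_one] at h1

/-- Equal matrix representations have equivalent restrictions to the constants. -/
theorem equiv_tanC_of_frRep_eq (F : UFrame DQ) (ψ ψ' : TanHom 𝒪 (MvPowerSeries (Fin 3) DQ.R))
    (hrep : ∀ σ, frRep F ψ σ = frRep F ψ' σ) :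
    Nonempty (GaloisRepAdic.Equiv
      (DQ.ρ.baseChangeAlong (tanC ψ : DQ.R →+* DualNumber (ResidueField 𝒪))
        (isLocalHom_tanHom (tanC ψ)))
      (DQ.ρ.baseChangeAlong (tanC ψ' : DQ.R →+* DualNumber (ResidueField 𝒪))
        (isLocalHom_tanHom (tanC ψ')))) := by
  have hmid : (Fermat.Agent.S53.toAdic (frRep F ψ) (matCont_frRep F ψ)).IsEquiv
      (Fermat.Agent.S53.toAdic (frRep F ψ') (matCont_frRep F ψ')) := by
    rw [Fermat.Agent.S53.toAdic_isEquiv_iff]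
    exact ⟨1, fun σ => by rw [Units.val_one, one_mul, mul_one, hrep σ]⟩
  obtain ⟨e1⟩ := equiv_frRep F ψ
  obtain ⟨e2⟩ := equiv_frRep F ψ'
  obtain ⟨e3⟩ := hmid
  exact ⟨(e1.trans e3).trans e2.symm⟩

/-- Equal matrix representations have equal restrictions to the constants. -/
theorem tanC_eq_of_frRep_eq
    (hbc : ∀ (φ : TanHom 𝒪 DQ.R)
      (hφ : IsLocalHom (φ : DQ.R →+* DualNumber (ResidueField 𝒪))), Function.Surjective φ →
      𝒟 (DQ.ρ.baseChangeAlong (φ : DQ.R →+* DualNumber (ResidueField 𝒪)) hφ))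
    (F : UFrame DQ) (ψ ψ' : TanHom 𝒪 (MvPowerSeries (Fin 3) DQ.R))
    (hrep : ∀ σ, frRep F ψ σ = frRep F ψ' σ) : tanC ψ = tanC ψ' := by
  haveI hlocD := isLocalHom_tanAlgebra 𝒪
  haveI := isAdicComplete_dualNumber (ResidueField 𝒪)
  obtain ⟨hφφ'⟩ := equiv_tanC_of_frRep_eq F ψ ψ' hrep
  by_cases hs' : Function.Surjective (tanC ψ')
  · have huniv := DQ.universal (DualNumber (ResidueField 𝒪)) (residue_tanAlgebra_surjective 𝒪)
      _ (hbc (tanC ψ') (isLocalHom_tanHom (tanC ψ')) hs') (residual_isEquiv_tanC F ψ')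
    exact huniv.unique ⟨isLocalHom_tanHom (tanC ψ), ⟨hφφ'⟩⟩
      ⟨isLocalHom_tanHom (tanC ψ'), ⟨GaloisRepAdic.Equiv.refl _⟩⟩
  · by_cases hs : Function.Surjective (tanC ψ)
    · have huniv := DQ.universal (DualNumber (ResidueField 𝒪))
        (residue_tanAlgebra_surjective 𝒪) _ (hbc (tanC ψ) (isLocalHom_tanHom (tanC ψ)) hs)
        (residual_isEquiv_tanC F ψ)
      exact huniv.unique ⟨isLocalHom_tanHom (tanC ψ), ⟨GaloisRepAdic.Equiv.refl _⟩⟩
        ⟨isLocalHom_tanHom (tanC ψ'), ⟨hφφ'.symm⟩⟩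
    · exact tanHom_eq_of_snd_eq_zero DQ.residue_surjective (tanC ψ) (tanC ψ')
        (snd_tanC_eq_zero ψ hs) (snd_tanC_eq_zero ψ' hs')

/-- Equal matrix representations have equal framings (Schur's lemma). -/
theorem frameZ_eq_of_frRep_eq (F : UFrame DQ) (ψ ψ' : TanHom 𝒪 (MvPowerSeries (Fin 3) DQ.R))
    (hC : tanC ψ = tanC ψ')
    (hrep : ∀ σ, frRep F ψ σ = frRep F ψ' σ) : frameZ ψ = frameZ ψ' := by
  have hcR : ∀ σ, cRep F ψ σ = cRep F ψ' σ := by
    intro σ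
    unfold cRep
    rw [hC]
  have hZ : ∀ σ, (frameZ ψ - frameZ ψ') * F.rb σ = F.rb σ * (frameZ ψ - frameZ ψ') := by
    intro σ
    have h1 := congrArg m1 (hrep σ)
    rw [m1_frRep, m1_frRep, hcR σ] at h1
    have h2 := add_left_cancel h1
    rw [sub_mul, mul_sub]
    rw [sub_eq_sub_iff_add_eq_add] at h2 ⊢
    rw [h2, add_comm]
  obtain ⟨c, hc⟩ := Fermat.Agent.S53.schur_matrix ρbar DQ.absIrr F.rb F.hrb ⟨F.e⟩ _ hZ
  have hc0 : c = 0 := by
    have h1 := congrFun (congrFun hc 1) 1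
    simp [frameZ] at h1
    exact h1.symm
  rw [hc0, zero_smul] at hc
  exact sub_eq_zero.1 hc

theorem map_X_eq_of_frameZ_eq (ψ ψ' : TanHom 𝒪 (MvPowerSeries (Fin 3) DQ.R))
    (hZZ : frameZ ψ = frameZ ψ') (i : Fin 3) :
    ψ (MvPowerSeries.X i) = ψ' (MvPowerSeries.X i) := by
  apply TrivSqZeroExt.ext
  · rw [fst_map_X, fst_map_X]
  · fin_cases i
    · have h1 := congrFun (congrFun hZZ 0) 0
      simpa [frameZ] using h1
    · have h1 := congrFun (congrFun hZZ 0) 1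
      simpa [frameZ] using h1
    · have h1 := congrFun (congrFun hZZ 1) 0
      simpa [frameZ] using h1

/-- **FR-DICT, injectivity.**  `ψ ↦ frCoc F ψ` is injective on the nose. -/
theorem frCoc_injective
    (hbc : ∀ (φ : TanHom 𝒪 DQ.R)
      (hφ : IsLocalHom (φ : DQ.R →+* DualNumber (ResidueField 𝒪))), Function.Surjective φ →
      𝒟 (DQ.ρ.baseChangeAlong (φ : DQ.R →+* DualNumber (ResidueField 𝒪)) hφ))
    (F : UFrame DQ) : Function.Injective (frCoc (𝒪 := 𝒪) F) := by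
  intro ψ ψ' h
  have hrep := frRep_eq_of_frCoc_eq F ψ ψ' h
  have hC := tanC_eq_of_frRep_eq hbc F ψ ψ' hrep
  exact tanHom_ext_of_C_X ψ ψ' hC
    (map_X_eq_of_frameZ_eq ψ ψ' (frameZ_eq_of_frRep_eq F ψ ψ' hC hrep))

end Core

end

end Fermat.Agent.S38.H953
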