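import Fermat.Agent.S56.H596.Dict
import Fermat.Agent.S53.DictSchur

/-!
# Route T (Ihara avoidance), Galois side: the ring framed at one prime (helper953)

Let `DQ` be a universal deformation ring of `ρ̄` (absolutely irreducible) for a condition `𝒟`.
The ring *framed at one place* is `R□ = DQ.R⟦Y₀, Y₁, Y₂⟧`: the three variables are the entries of
the framing matrix `G = 1 + !![Y₀, Y₁; Y₂, 0]`, a system of representatives of `1 + M₂(𝔪)` modulo
scalars.  The framed universal matrices are `r□(σ) = G · r^univ(σ) · G⁻¹`.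

* `frameMat`, `frameUnit` : the matrix `G`;
* `UFrame DQ` : a matrix form `rb` of `ρ̄` together with a matrix form `rR` of the universal
  deformation lifting `rb`;  `exists_uFrame`;
* `framedRep F : G_ℚ →* M₂(R□)` : the framed universal representation, `matCont_framedRep`.

Nothing unproved in this file.
-/

set_option autoImplicit false
set_option linter.unusedSectionVars false
set_option linter.unusedVariables false
set_option linter.style.haveILetI false

namespace Fermat.Agent.S38.H953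

noncomputable section

open IsLocalRing
open Fermat.Agent.S56 Fermat.Agent.S56.H716 Fermat.Agent.S56.H596

/-! ### The framing matrix -/

section FrameUnit

variable (R : Type) [CommRing R]

/-- The framing matrix `G = 1 + !![Y₀, Y₁; Y₂, 0]` over `R⟦Y₀, Y₁, Y₂⟧`. -/
def frameMat : Matrix (Fin 2) (Fin 2) (MvPowerSeries (Fin 3) R) :=
  !![1 + MvPowerSeries.X 0, MvPowerSeries.X 1; MvPowerSeries.X 2, 1]

theorem det_frameMat :
    (frameMat R).det = 1 + MvPowerSeries.X 0 - MvPowerSeries.X 1 * MvPowerSeries.X 2 := by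
  simp [frameMat, Matrix.det_fin_two_of]

theorem isUnit_frameMat : IsUnit (frameMat R) := by
  rw [Matrix.isUnit_iff_isUnit_det, det_frameMat, MvPowerSeries.isUnit_iff_constantCoeff]
  simp

/-- The framing matrix as a unit. -/
def frameUnit : (Matrix (Fin 2) (Fin 2) (MvPowerSeries (Fin 3) R))ˣ := (isUnit_frameMat R).unit

@[simp] theorem coe_frameUnit :
    ((frameUnit R : (Matrix (Fin 2) (Fin 2) (MvPowerSeries (Fin 3) R))ˣ) :
      Matrix (Fin 2) (Fin 2) (MvPowerSeries (Fin 3) R)) = frameMat R := rfl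

end FrameUnit

/-! ### Matrix frames of a universal deformation -/

section Frame

variable {𝒪 : Type} [CommRing 𝒪] [IsDomain 𝒪] [IsDiscreteValuationRing 𝒪]
  [IsAdicComplete (maximalIdeal 𝒪) 𝒪]
  {ρbar : ResidualGaloisRep (ResidueField 𝒪)} {𝒟 : DefCond 𝒪}

/-- A matrix frame of a universal deformation: a matrix form `rb` of `ρ̄` and a matrix form `rR`
of the universal deformation which lifts `rb` on the nose. -/
structure UFrame (DQ : GaloisRep.DeformationRingData 𝒪 ρbar 𝒟) where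
  /-- matrix form of `ρ̄` -/
  rb : GQ →* Matrix (Fin 2) (Fin 2) (ResidueField 𝒪)
  /-- `rb` factors through a finite level -/
  hrb : GaloisFactorsThroughFiniteLevel rb
  /-- `ρ̄ ≅ rb` -/
  e : ResidualGaloisRep.Equiv ρbar (Fermat.Agent.S53.toRes rb hrb)
  /-- matrix form of the universal deformation -/
  rR : GQ →* Matrix (Fin 2) (Fin 2) DQ.R
  /-- `rR` is continuous -/
  hrR : Fermat.Agent.S53.MatCont rR
  /-- `rR` lifts `rb` -/
  hlift : ∀ σ, (rR σ).map (residue DQ.R) = (rb σ).map (ResidueField.map (algebraMap 𝒪 DQ.R))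
  /-- `ρ^univ ≅ rR` -/
  eR : GaloisRepAdic.Equiv DQ.ρ (Fermat.Agent.S53.toAdic rR hrR)

theorem exists_uFrame (DQ : GaloisRep.DeformationRingData 𝒪 ρbar 𝒟) : Nonempty (UFrame DQ) := by
  obtain ⟨rb, hrb, ⟨e⟩⟩ := Fermat.Agent.S53.exists_toRes ρbar
  obtain ⟨rR, hrR, hlift, ⟨eR⟩⟩ := Fermat.Agent.S53.exists_lift_of_residual_isEquiv ρbar rb hrb
    ⟨e⟩ DQ.ρ DQ.residual_isEquiv
  exact ⟨⟨rb, hrb, e, rR, hrR, hlift, eR⟩⟩

variable {DQ : GaloisRep.DeformationRingData 𝒪 ρbar 𝒟}

/-- The coordinate system of `ρ̄.V` given by a frame. -/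
def UFrame.E (F : UFrame DQ) : ρbar.V ≃ₗ[ResidueField 𝒪] (Fin 2 → ResidueField 𝒪) :=
  F.e.toLinearEquiv

theorem UFrame.hE (F : UFrame DQ) (σ : GQ) (v : ρbar.V) :
    F.E (ρbar.ρ σ v) = (F.rb σ).mulVec (F.E v) := F.e.map_apply σ v

/-- The constants `DQ.R → DQ.R⟦Y⟧` form a local homomorphism. -/
theorem isLocalHom_C (R : Type) [CommRing R] [IsLocalRing R] :
    IsLocalHom (MvPowerSeries.C : R →+* MvPowerSeries (Fin 3) R) := by
  have h := Fermat.Agent.S53.H596.isLocalHom_algebraMap_mvPowerSeries (σ := Fin 3) (R := R)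
  rwa [← MvPowerSeries.c_eq_algebraMap] at h

/-- **The framed universal representation** `σ ↦ G · r^univ(σ) · G⁻¹` with values in
`M₂(DQ.R⟦Y₀, Y₁, Y₂⟧)`. -/
def framedRep (F : UFrame DQ) : GQ →* Matrix (Fin 2) (Fin 2) (MvPowerSeries (Fin 3) DQ.R) :=
  Fermat.Agent.S53.conjRep (frameUnit DQ.R)
    (Fermat.Agent.S53.mapRep (MvPowerSeries.C : DQ.R →+* MvPowerSeries (Fin 3) DQ.R) F.rR)

theorem framedRep_apply (F : UFrame DQ) (σ : GQ) :
    framedRep F σ = frameMat DQ.R * (F.rR σ).map MvPowerSeries.C *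
      (((frameUnit DQ.R)⁻¹ : (Matrix (Fin 2) (Fin 2) (MvPowerSeries (Fin 3) DQ.R))ˣ) :
        Matrix (Fin 2) (Fin 2) (MvPowerSeries (Fin 3) DQ.R)) := rfl

theorem matCont_framedRep (F : UFrame DQ) : Fermat.Agent.S53.MatCont (framedRep F) :=
  (F.hrR.map _ (isLocalHom_C DQ.R)).conj _

end Frame

end

end Fermat.Agent.S38.H953
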