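import Fermat.Agent.S38.H953.UnframedP8
import Fermat.Agent.S38.H953.CobGlue

/-!
# Route T (Ihara avoidance), Galois side: the presentation at the pivot primes (helper953)

Board v2 of row HARD, item (3) GAL:  `P₈^{⊗Π}⟦x₁, …, x_g⟧ ↠ R_Q`.

`J` indexes the pivot primes; for `j ∈ J` let `(φ j, σ j)` be a tame pair at the chosen place over
the `j`-th pivot: `ρ̄(φ j)` is the scalar `ā_j` (`a j ∈ 𝒪` a lift) and `ρ̄(σ j) = 1`.  The `8 #J`
elements

  `pivX F φ σ a (j, false, i, i') = F.rR (φ j) i i' − a_j δ_{i i'}`,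
  `pivX F φ σ a (j, true,  i, i') = F.rR (σ j) i i' − δ_{i i'}`

of `DQ.R` lie in the maximal ideal, and:

* `exists_surjective_pivots` : if the tangent cocycles of type `𝒟` vanishing at all `φ j`, `σ j`
  are represented modulo coboundaries by a space of dimension `≤ g`, then there is a surjection
  `γ : 𝒪⟦X_{j,b,i,i'}, x₁, …, x_g⟧ ↠ DQ.R` with `γ (X_{j,b,i,i'}) = pivX F φ σ a (j, b, i, i')`;
* `exists_surjective_pivot_of_relSel` : one pivot, from the bound on the nose `RelSel … r`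
  (helper183's `RelTWPrimes`): `g = r − 3`.

Nothing unproved in this file.
-/

set_option autoImplicit false
set_option linter.unusedSectionVars false
set_option linter.unusedVariables false
set_option linter.style.haveILetI false

namespace Fermat.Agent.S38.H953

noncomputable section

open IsLocalRing TrivSqZeroExt
open Fermat.Agent.S56 Fermat.Agent.S56.H716 Fermat.Agent.S56.H596 Fermat.Agent.S53.H596

section Piv

variable {𝒪 : Type} [CommRing 𝒪] [IsDomain 𝒪] [IsDiscreteValuationRing 𝒪]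
  [IsAdicComplete (maximalIdeal 𝒪) 𝒪]
  {ρbar : ResidualGaloisRep (ResidueField 𝒪)} {𝒟 : DefCond 𝒪}
  {DQ : GaloisRep.DeformationRingData 𝒪 ρbar 𝒟}

attribute [local instance] Fermat.Agent.S56.tanAlgebra

/-- The coordinates of the universal matrices at the pivot primes. -/
def pivX (F : UFrame DQ) {J : Type} (φ σ : J → GQ) (a : J → 𝒪) :
    J × Bool × Fin 2 × Fin 2 → DQ.R :=
  fun z => if z.2.1 then F.rR (σ z.1) z.2.2.1 z.2.2.2 -
      (1 : Matrix (Fin 2) (Fin 2) DQ.R) z.2.2.1 z.2.2.2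
    else F.rR (φ z.1) z.2.2.1 z.2.2.2 -
      algebraMap 𝒪 DQ.R (a z.1) * (1 : Matrix (Fin 2) (Fin 2) DQ.R) z.2.2.1 z.2.2.2

theorem matToEnd_smul_one {k : Type} [Field k] {V : Type} [AddCommGroup V] [Module k V]
    (E : V ≃ₗ[k] (Fin 2 → k)) (c : k) :
    matToEnd E (c • (1 : Matrix (Fin 2) (Fin 2) k)) = c • (1 : Module.End k V) := by
  refine LinearMap.ext fun v => ?_
  rw [matToEnd_apply, Matrix.smul_mulVec, Matrix.one_mulVec, map_smul,
    LinearEquiv.symm_apply_apply]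
  rfl

theorem conj_eq_of_scalar {k : Type} [Field k] (ρb : ResidualGaloisRep k) (τ : GQ) (c : k)
    (h : ρb.ρ τ = c • (1 : Module.End k ρb.V)) (m : Module.End k ρb.V) :
    ρb.ρ τ * m * ρb.ρ τ⁻¹ = m := by
  have h2 : ρb.ρ τ * ρb.ρ τ⁻¹ = 1 := by rw [← map_mul, mul_inv_cancel, map_one]
  calc ρb.ρ τ * m * ρb.ρ τ⁻¹ = c • (m * ρb.ρ τ⁻¹) := by
        rw [h, smul_mul_assoc, one_mul, smul_mul_assoc]
    _ = m * ((c • (1 : Module.End k ρb.V)) * ρb.ρ τ⁻¹) := by
        rw [smul_mul_assoc, one_mul, mul_smul_comm]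
    _ = m := by rw [← h, h2, mul_one]

theorem rb_eq_of_rho_eq (F : UFrame DQ) (τ : GQ) (M : Matrix (Fin 2) (Fin 2) (ResidueField 𝒪))
    (h : ρbar.ρ τ = matToEnd F.E M) : F.rb τ = M := by
  apply (matToEnd F.E).injective
  rw [← rho_eq_matToEnd F.hE τ, h]

theorem residue_rR (F : UFrame DQ) (τ : GQ) (i i' : Fin 2) :
    residue DQ.R (F.rR τ i i') = ResidueField.map (algebraMap 𝒪 DQ.R) (F.rb τ i i') := by
  have h1 := congrFun (congrFun (F.hlift τ) i) i'
  simpa only [Matrix.map_apply] using h1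

theorem one_apply_mem_range (i i' : Fin 2) :
    (1 : Matrix (Fin 2) (Fin 2) DQ.R) i i' =
      algebraMap 𝒪 DQ.R ((1 : Matrix (Fin 2) (Fin 2) 𝒪) i i') := by
  by_cases h : i = i'
  · subst h; simp
  · simp [h]

theorem pivX_mem {J : Type} (F : UFrame DQ) (φ σ : J → GQ) (a : J → 𝒪)
    (hφ : ∀ j, ρbar.ρ (φ j) = residue 𝒪 (a j) • (1 : Module.End (ResidueField 𝒪) ρbar.V))
    (hσ : ∀ j, ρbar.ρ (σ j) = 1) (z : J × Bool × Fin 2 × Fin 2) :
    pivX F φ σ a z ∈ maximalIdeal DQ.R := by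
  obtain ⟨j, b, i, i'⟩ := z
  rw [← residue_eq_zero_iff]
  cases b
  · have h1 : F.rb (φ j) = residue 𝒪 (a j) • (1 : Matrix (Fin 2) (Fin 2) (ResidueField 𝒪)) := by
      apply rb_eq_of_rho_eq
      rw [hφ j, matToEnd_smul_one]
    show residue DQ.R (F.rR (φ j) i i' -
      algebraMap 𝒪 DQ.R (a j) * (1 : Matrix (Fin 2) (Fin 2) DQ.R) i i') = 0
    rw [map_sub, map_mul, residue_rR, h1, one_apply_mem_range (DQ := DQ),
      ← ResidueField.map_residue, ← ResidueField.map_residue, ← map_mul, sub_eq_zero]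
    congr 1
    by_cases h : i = i'
    · subst h; simp
    · simp [h]
  · have h1 : F.rb (σ j) = 1 := by
      apply rb_eq_of_rho_eq
      rw [hσ j, map_one]
    show residue DQ.R (F.rR (σ j) i i' - (1 : Matrix (Fin 2) (Fin 2) DQ.R) i i') = 0
    rw [map_sub, residue_rR, h1, one_apply_mem_range (DQ := DQ), ← ResidueField.map_residue,
      sub_eq_zero]
    congr 1
    by_cases h : i = i'
    · subst h; simp
    · simp [h]

/-- **(GAL), item (3) of board v2**: presentation of the universal deformation ring over the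
power series ring on the coordinates of the universal matrices at the pivot primes. -/
theorem exists_surjective_pivots [Finite (ResidueField 𝒪)]
    (p : ℕ) (hp : p.Prime)
    (hdet : ∀ ρ' : GaloisRepAdic (DualNumber (ResidueField 𝒪)), 𝒟 ρ' → ρ'.DetIsCyclotomic p)
    (hbc : ∀ (φ : TanHom 𝒪 DQ.R)
      (hφ : IsLocalHom (φ : DQ.R →+* DualNumber (ResidueField 𝒪))), Function.Surjective φ →
      𝒟 (DQ.ρ.baseChangeAlong (φ : DQ.R →+* DualNumber (ResidueField 𝒪)) hφ))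
    (F : UFrame DQ) {J : Type} [Finite J] (φ σ : J → GQ) (a : J → 𝒪)
    (hφ : ∀ j, ρbar.ρ (φ j) = residue 𝒪 (a j) • (1 : Module.End (ResidueField 𝒪) ρbar.V))
    (hσ : ∀ j, ρbar.ρ (σ j) = 1)
    (g : ℕ) (hsel : RelSelCob 𝒪 ρbar 𝒟 (Set.range φ ∪ Set.range σ) g) :
    ∃ γ : MvPowerSeries ((J × Bool × Fin 2 × Fin 2) ⊕ Fin g) 𝒪 →ₐ[𝒪] DQ.R,
      Function.Surjective γ ∧
        ∀ z, γ (MvPowerSeries.X (Sum.inl z)) = pivX F φ σ a z := by
  refine exists_surjective_powerSeries_of_relSelCob p hp hdet hbc F _ (pivX F φ σ a)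
    (pivX_mem F φ σ a hφ hσ) ?_ g hsel
  intro τ hτ i i'
  rcases hτ with ⟨j, rfl⟩ | ⟨j, rfl⟩
  · have h1 : F.rR (φ j) i i' = pivX F φ σ a (j, false, i, i') +
        algebraMap 𝒪 DQ.R (a j * (1 : Matrix (Fin 2) (Fin 2) 𝒪) i i') := by
      rw [map_mul, ← one_apply_mem_range (DQ := DQ)]
      show _ = F.rR (φ j) i i' -
        algebraMap 𝒪 DQ.R (a j) * (1 : Matrix (Fin 2) (Fin 2) DQ.R) i i' + _
      ring
    rw [h1]
    exact Subalgebra.add_mem _ (Algebra.subset_adjoin ⟨_, rfl⟩) (Subalgebra.algebraMap_mem _ _)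
  · have h1 : F.rR (σ j) i i' = pivX F φ σ a (j, true, i, i') +
        algebraMap 𝒪 DQ.R ((1 : Matrix (Fin 2) (Fin 2) 𝒪) i i') := by
      rw [← one_apply_mem_range (DQ := DQ)]
      show _ = F.rR (σ j) i i' - (1 : Matrix (Fin 2) (Fin 2) DQ.R) i i' + _
      ring
    rw [h1]
    exact Subalgebra.add_mem _ (Algebra.subset_adjoin ⟨_, rfl⟩) (Subalgebra.algebraMap_mem _ _)

/-- **One pivot, from the bound on the nose**: `𝒪⟦8 + (r − 3) variables⟧ ↠ DQ.R`. -/
theorem exists_surjective_pivot_of_relSel [Finite (ResidueField 𝒪)]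
    (p : ℕ) (hp : p.Prime)
    (hdet : ∀ ρ' : GaloisRepAdic (DualNumber (ResidueField 𝒪)), 𝒟 ρ' → ρ'.DetIsCyclotomic p)
    (hbc : ∀ (φ : TanHom 𝒪 DQ.R)
      (hφ : IsLocalHom (φ : DQ.R →+* DualNumber (ResidueField 𝒪))), Function.Surjective φ →
      𝒟 (DQ.ρ.baseChangeAlong (φ : DQ.R →+* DualNumber (ResidueField 𝒪)) hφ))
    (F : UFrame DQ) (φ σ : GQ) (a : 𝒪)
    (hφ : ρbar.ρ φ = residue 𝒪 a • (1 : Module.End (ResidueField 𝒪) ρbar.V))
    (hσ : ρbar.ρ σ = 1)
    (r : ℕ) (hsel : RelSel 𝒪 ρbar 𝒟 {φ, σ} r) :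
    ∃ γ : MvPowerSeries ((Unit × Bool × Fin 2 × Fin 2) ⊕ Fin (r - 3)) 𝒪 →ₐ[𝒪] DQ.R,
      Function.Surjective γ ∧
        ∀ z, γ (MvPowerSeries.X (Sum.inl z)) =
          pivX F (fun _ : Unit => φ) (fun _ : Unit => σ) (fun _ : Unit => a) z := by
  have hset : (Set.range (fun _ : Unit => φ) ∪ Set.range (fun _ : Unit => σ)) = {φ, σ} := by
    ext τ
    simp only [Set.range_const, Set.mem_union, Set.mem_singleton_iff, Set.mem_insert_iff]
  refine exists_surjective_pivots p hp hdet hbc F (fun _ : Unit => φ) (fun _ : Unit => σ)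
    (fun _ : Unit => a) (fun _ => hφ) (fun _ => hσ) (r - 3) ?_
  rw [hset]
  refine relSelCob_of_relSel DQ.absIrr (fun τ hτ m => ?_) hsel
  rcases hτ with rfl | hτ
  · exact conj_eq_of_scalar ρbar τ _ hφ m
  · rw [Set.mem_singleton_iff.mp hτ]
    exact conj_eq_of_scalar ρbar σ 1 (by rw [hσ, one_smul]) m

end Piv

end

end Fermat.Agent.S38.H953
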