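import Fermat.Agent.S38.IA.Spec2
import Fermat.Agent.S38.H953.Pivot
import Fermat.Agent.S30.H870.Cyclo

/-!
# Row HARD, leaf GAL: the presentation `LocAmb ↠ R_Q` in traceless coordinates (helper953)

Glue item (C) "COORD" for `Fermat.Agent.S38.IA.IAGalStatement` (trunk `S38/IA/Spec2.lean`).

Let `DQ` be a universal deformation ring, `F` a matrix frame of its universal deformation and
`(φ j, σ j)`, `j ∈ κ`, elements of `G_ℚ` with `ρ̄(σ j) = 1`, `ρ̄(φ j)` scalar,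
`det ρ(σ j) = 1`, `det ρ(φ j) = qn j ≡ 1 mod 𝔪_𝒪` (`2 ∈ 𝒪ˣ`).  The TRACELESS COORDINATES of
`Σ = F.rR (σ j)` and `Φ = F.rR (φ j)` are the `6 #κ` elements `locX F φ σ h` of `𝔪_R`.

* `entries_mem_range_locX` : all entries of `Σ` and `Φ` lie in the image of
  `evalCNL … : 𝒪⟦κ × Fin 6⟧ → DQ.R` (`X ↦` traceless coordinates): the half-traces are the square
  roots of `1 + Q(v)`, `qn + Q(w)` with the right residue (Hensel's lemma in `𝒪⟦κ × Fin 6⟧`).
* `exists_locAmb_of_bform` : from the relative presentation in `B`-form (the body of helper1's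
  `IAGalAt`): a basis `bas` of the universal deformation with matrices `F.rR` and a SURJECTION
  `γ : LocAmb 𝒪 κ g ↠ DQ.R` with `γ (vVar j ·)`, `γ (wVar j ·)` the traceless coordinates.
* `exists_locAmb_of_relSelCob` : the same from the bound `RelSelCob … g`.
* `det_frob_eq_953`, `det_inertia_eq_one_953` : the determinant clauses, from `DetIsCyclotomic`.

Nothing unproved in this file.
-/

set_option autoImplicit false
set_option linter.unusedSectionVars false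
set_option linter.unusedVariables false
set_option linter.style.haveILetI false

namespace Fermat.Agent.S38.H953

noncomputable section

open IsLocalRing Polynomial
open Fermat.Agent.S56 Fermat.Agent.S56.H716 Fermat.Agent.S56.H596 Fermat.Agent.S53.H596

/-! ### Square roots -/

section Sqrt

/-- Hensel: a `1`-unit of a complete local ring with `2` invertible has a square root which is
a `1`-unit. -/
theorem exists_sqrt_of_sub_one_mem {B : Type*} [CommRing B] [IsLocalRing B]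
    [IsAdicComplete (maximalIdeal B) B] (h2 : IsUnit (2 : B))
    (u : B) (hu : u - 1 ∈ maximalIdeal B) : ∃ s : B, s ^ 2 = u ∧ s - 1 ∈ maximalIdeal B := by
  have hH : HenselianRing B (maximalIdeal B) := inferInstance
  obtain ⟨a, ha, ha1⟩ := hH.is_henselian (X ^ 2 - C u) (monic_X_pow_sub_C u (by norm_num)) 1
    (by
      have : eval 1 (X ^ 2 - C u) = -(u - 1) := by simp
      rw [this]
      exact neg_mem hu)
    (by
      have : eval 1 (derivative (X ^ 2 - C u)) = 2 := by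
        simp
        exact one_add_one_eq_two
      rw [this]
      exact h2.map _)
  refine ⟨a, ?_, ha1⟩
  have h3 : eval a (X ^ 2 - C u) = 0 := ha
  simpa [sub_eq_zero] using h3

/-- Two units of a local ring (`2` invertible) with the same square and the same residue are
equal. -/
theorem eq_of_sq_eq_sq_of_sub_mem {R : Type*} [CommRing R] [IsLocalRing R] (h2 : IsUnit (2 : R))
    {s t : R} (hs : IsUnit s) (hst : s - t ∈ maximalIdeal R) (h : s ^ 2 = t ^ 2) : s = t := by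
  have h1 : (s + t) * (s - t) = 0 := by
    have : (s + t) * (s - t) = s ^ 2 - t ^ 2 := by ring
    rw [this, h, sub_self]
  have hu : IsUnit (s + t) := by
    by_contra hnu
    have h3 : s + t ∈ maximalIdeal R := (mem_maximalIdeal _).2 hnu
    have h4 := Ideal.add_mem _ h3 hst
    have h5 : s + t + (s - t) = 2 * s := by ring
    rw [h5] at h4
    exact (mem_maximalIdeal _).1 h4 (h2.mul hs)
  exact sub_eq_zero.mp ((hu.mul_right_eq_zero).mp h1)

end Sqrt

/-! ### Traceless coordinates of a `2 × 2` matrix -/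

section TC

variable {R : Type*} [CommRing R]

/-- The traceless coordinates of a `2 × 2` matrix (`h` is an inverse of `2`). -/
def tcoord (h : R) (M : Matrix (Fin 2) (Fin 2) R) : Fin 3 → R :=
  ![h * (M 0 0 - M 1 1), M 0 1, M 1 0]

/-- Half of the trace (`h` is an inverse of `2`). -/
def halfTr (h : R) (M : Matrix (Fin 2) (Fin 2) R) : R := h * (M 0 0 + M 1 1)

/-- The quadratic form `Q(u) = u₀² + u₁ u₂`. -/
def qForm (u : Fin 3 → R) : R := u 0 ^ 2 + u 1 * u 2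

@[simp] theorem tcoord_zero (h : R) (M : Matrix (Fin 2) (Fin 2) R) :
    tcoord h M 0 = h * (M 0 0 - M 1 1) := rfl

@[simp] theorem tcoord_one (h : R) (M : Matrix (Fin 2) (Fin 2) R) : tcoord h M 1 = M 0 1 := rfl

@[simp] theorem tcoord_two (h : R) (M : Matrix (Fin 2) (Fin 2) R) : tcoord h M 2 = M 1 0 := rfl

theorem two_mul_tcoord_zero {h : R} (hh : 2 * h = 1) (M : Matrix (Fin 2) (Fin 2) R) :
    2 * tcoord h M 0 = M 0 0 - M 1 1 := by
  rw [tcoord_zero]
  linear_combination (M 0 0 - M 1 1) * hh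

theorem halfTr_sq {h : R} (hh : 2 * h = 1) (M : Matrix (Fin 2) (Fin 2) R) :
    halfTr h M ^ 2 = M.det + qForm (tcoord h M) := by
  rw [halfTr, qForm, tcoord_zero, tcoord_one, tcoord_two, Matrix.det_fin_two]
  linear_combination (M 0 0 * M 1 1) * (2 * h + 1) * hh

theorem apply_zero_zero_eq {h : R} (hh : 2 * h = 1) (M : Matrix (Fin 2) (Fin 2) R) :
    M 0 0 = halfTr h M + tcoord h M 0 := by
  rw [halfTr, tcoord_zero]
  linear_combination (-(M 0 0)) * hh

theorem apply_one_one_eq {h : R} (hh : 2 * h = 1) (M : Matrix (Fin 2) (Fin 2) R) :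
    M 1 1 = halfTr h M - tcoord h M 0 := by
  rw [halfTr, tcoord_zero]
  linear_combination (-(M 1 1)) * hh

end TC

/-! ### Evaluation of power series and square roots -/

section Range

variable {𝒪 : Type} [CommRing 𝒪] [IsLocalRing 𝒪] [IsNoetherianRing 𝒪]
  [IsAdicComplete (maximalIdeal 𝒪) 𝒪]
  {R : Type} [CommRing R] [IsLocalRing R] [IsAdicComplete (maximalIdeal R) R] [Algebra 𝒪 R]
  {ι : Type} [Finite ι]

theorem evalCNL_mem_maximalIdeal (hloc : IsLocalHom (algebraMap 𝒪 R)) (x : ι → R)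
    (hx : ∀ i, x i ∈ maximalIdeal R) {f : MvPowerSeries ι 𝒪}
    (hf : f ∈ maximalIdeal (MvPowerSeries ι 𝒪)) :
    evalCNL (R := 𝒪) (maximalIdeal R) x hx f ∈ maximalIdeal R := by
  have h1 : evalCNL (R := 𝒪) (maximalIdeal R) x hx f ∈
      Ideal.map (evalCNL (R := 𝒪) (maximalIdeal R) x hx)
        (maximalIdeal (MvPowerSeries ι 𝒪)) := Ideal.mem_map_of_mem _ hf
  rw [map_maximalIdeal_mvPowerSeries] at h1
  refine (sup_le ?_ ?_ : _ ≤ maximalIdeal R) h1
  · rw [Ideal.map_le_iff_le_comap]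
    intro c hc
    rw [Ideal.mem_comap, mem_maximalIdeal, mem_nonunits_iff]
    intro hu
    exact (mem_maximalIdeal _).1 hc (hloc.map_nonunit c hu)
  · rw [Ideal.span_le]
    rintro _ ⟨i, rfl⟩
    show evalCNL (R := 𝒪) (maximalIdeal R) x hx (MvPowerSeries.X i) ∈ maximalIdeal R
    rw [evalCNL_X]
    exact hx i

/-- An element `t` of `R` whose square is the value of a `1`-unit `u` of `𝒪⟦ι⟧` and whose residue
is that of a square root `ε ∈ 𝒪` of `1` is a value of the evaluation map. -/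
theorem mem_range_evalCNL_of_sq (hloc : IsLocalHom (algebraMap 𝒪 R)) (x : ι → R)
    (hx : ∀ i, x i ∈ maximalIdeal R) (h2 : IsUnit (2 : 𝒪))
    (u : MvPowerSeries ι 𝒪) (hu : u - 1 ∈ maximalIdeal (MvPowerSeries ι 𝒪))
    (ε : 𝒪) (hε : ε ^ 2 = 1) (t : R)
    (ht : t ^ 2 = evalCNL (R := 𝒪) (maximalIdeal R) x hx u)
    (htε : t - algebraMap 𝒪 R ε ∈ maximalIdeal R) :
    t ∈ Set.range (evalCNL (R := 𝒪) (maximalIdeal R) x hx) := by
  haveI : IsAdicComplete (maximalIdeal (MvPowerSeries ι 𝒪)) (MvPowerSeries ι 𝒪) :=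
    isAdicComplete_mvPowerSeries
  have h2B : IsUnit (2 : MvPowerSeries ι 𝒪) := by
    have := h2.map (algebraMap 𝒪 (MvPowerSeries ι 𝒪))
    rwa [map_ofNat] at this
  have h2R : IsUnit (2 : R) := by
    have := h2.map (algebraMap 𝒪 R)
    rwa [map_ofNat] at this
  obtain ⟨s, hs, hs1⟩ := exists_sqrt_of_sub_one_mem h2B u hu
  have hεu : IsUnit ε := IsUnit.of_pow_eq_one hε (by norm_num)
  have hεR : IsUnit (algebraMap 𝒪 R ε) := hεu.map _
  refine ⟨algebraMap 𝒪 (MvPowerSeries ι 𝒪) ε * s, ?_⟩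
  rw [map_mul, AlgHom.commutes]
  symm
  -- `t` is a unit
  have htu : IsUnit t := by
    by_contra hnu
    have h3 : t ∈ maximalIdeal R := (mem_maximalIdeal _).2 hnu
    have h4 := Ideal.sub_mem _ h3 htε
    rw [sub_sub_cancel] at h4
    exact (mem_maximalIdeal _).1 h4 hεR
  apply eq_of_sq_eq_sq_of_sub_mem h2R htu
  · have h5 := evalCNL_mem_maximalIdeal hloc x hx hs1
    rw [map_sub, map_one] at h5
    have h6 : t - algebraMap 𝒪 R ε * evalCNL (R := 𝒪) (maximalIdeal R) x hx s =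
        (t - algebraMap 𝒪 R ε) -
          algebraMap 𝒪 R ε * (evalCNL (R := 𝒪) (maximalIdeal R) x hx s - 1) := by ring
    rw [h6]
    exact Ideal.sub_mem _ htε (Ideal.mul_mem_left _ _ h5)
  · rw [mul_pow, ← map_pow, ← map_pow, hε, hs, map_one, one_mul, ht]

end Range

/-! ### The determinant clauses -/

section Det

variable {A : Type} [CommRing A] [IsLocalRing A] [IsNoetherianRing A]

/-- An element of a Noetherian local ring divisible by all powers of `p ∈ 𝔪` is zero. -/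
theorem eq_zero_of_forall_mem_span_pow_953 {p : ℕ} (hp : (p : A) ∈ maximalIdeal A) {z : A}
    (h : ∀ n : ℕ, z ∈ Ideal.span {((p ^ n : ℕ) : A)}) : z = 0 := by
  have hbot := Ideal.iInf_pow_eq_bot_of_isLocalRing (maximalIdeal A) (Ideal.IsPrime.ne_top')
  rw [← Ideal.mem_bot, ← hbot, Ideal.mem_iInf]
  intro n
  have hle : Ideal.span {((p ^ n : ℕ) : A)} ≤ maximalIdeal A ^ n := by
    rw [Ideal.span_le, Set.singleton_subset_iff, Nat.cast_pow]
    exact Ideal.pow_mem_pow hp n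
  exact hle (h n)

/-- The determinant of a Frobenius element at `q ≠ p` is `q`. -/
theorem det_frob_eq_953 {p : ℕ} (hp : p.Prime) {ρ : GaloisRepAdic A} (hdet : ρ.DetIsCyclotomic p)
    {q : ℕ} (hq : q.Prime) (hqp : q ≠ p) {P : ValuationSubring Qb} (hP : P.LiesOverPrime q)
    {φ : GQ} (hφ : P.IsFrobeniusAt φ q) :
    LinearMap.det (ρ.ρ φ) = (q : A) := by
  haveI : Fact p.Prime := ⟨hp⟩
  rw [← sub_eq_zero]
  apply eq_zero_of_forall_mem_span_pow_953 hdet.1
  intro n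
  exact hdet.2 n φ q fun μ hμ =>
    Fermat.Agent.S30.H870.frob_root_pow_eq p hq hqp P hP φ hφ hμ

/-- The determinant of an element of inertia at `q ≠ p` is `1`. -/
theorem det_inertia_eq_one_953 {p : ℕ} (hp : p.Prime) {ρ : GaloisRepAdic A}
    (hdet : ρ.DetIsCyclotomic p)
    {q : ℕ} (hq : q.Prime) (hqp : q ≠ p) {P : ValuationSubring Qb} (hP : P.LiesOverPrime q)
    {σ : GQ} (hσ : σ ∈ P.inertiaSubgroupIn ℚ) :
    LinearMap.det (ρ.ρ σ) = 1 := by
  haveI : Fact p.Prime := ⟨hp⟩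
  rw [← sub_eq_zero]
  apply eq_zero_of_forall_mem_span_pow_953 hdet.1
  intro n
  have := hdet.2 n σ 1 fun μ hμ => by
    rw [pow_one]
    exact Fermat.Agent.S30.H870.inertia_root_eq p hq hqp P hP σ hσ hμ
  rwa [Nat.cast_one] at this

end Det

/-! ### The basis of the universal deformation given by a frame -/

section Basis

variable {𝒪 : Type} [CommRing 𝒪] [IsDomain 𝒪] [IsDiscreteValuationRing 𝒪]
  [IsAdicComplete (maximalIdeal 𝒪) 𝒪]
  {ρbar : ResidualGaloisRep (ResidueField 𝒪)} {𝒟 : DefCond 𝒪}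
  {DQ : GaloisRep.DeformationRingData 𝒪 ρbar 𝒟}

/-- The coordinate system of the universal deformation given by a frame. -/
def UFrame.ER (F : UFrame DQ) : DQ.ρ.V ≃ₗ[DQ.R] (Fin 2 → DQ.R) := F.eR.toLinearEquiv

theorem UFrame.hER (F : UFrame DQ) (τ : GQ) (v : DQ.ρ.V) :
    F.ER (DQ.ρ.ρ τ v) = (F.rR τ).mulVec (F.ER v) := F.eR.map_apply τ v

/-- The basis of the universal deformation given by a frame. -/
def UFrame.basis (F : UFrame DQ) : Module.Basis (Fin 2) DQ.R DQ.ρ.V :=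
  Module.Basis.ofEquivFun F.ER

theorem UFrame.toMatrix_basis (F : UFrame DQ) (τ : GQ) :
    LinearMap.toMatrix F.basis F.basis (DQ.ρ.ρ τ) = F.rR τ := by
  classical
  ext i j
  rw [LinearMap.toMatrix_apply]
  have h1 : F.ER (F.basis j) = Pi.single j 1 := by
    rw [UFrame.basis, Module.Basis.coe_ofEquivFun, LinearEquiv.apply_symm_apply]
  have h2 : F.basis.repr (DQ.ρ.ρ τ (F.basis j)) i = F.ER (DQ.ρ.ρ τ (F.basis j)) i := by
    rw [UFrame.basis, Module.Basis.ofEquivFun_repr_apply]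
  rw [h2, F.hER, h1, Matrix.mulVec_single_one]
  rfl

theorem UFrame.det_rR (F : UFrame DQ) (τ : GQ) :
    (F.rR τ).det = LinearMap.det (DQ.ρ.ρ τ) := by
  rw [← F.toMatrix_basis τ, LinearMap.det_toMatrix]

end Basis

/-! ### The traceless coordinates at the pivots -/

section Main

variable {𝒪 : Type} [CommRing 𝒪] [IsDomain 𝒪] [IsDiscreteValuationRing 𝒪]
  [IsAdicComplete (maximalIdeal 𝒪) 𝒪]
  {ρbar : ResidualGaloisRep (ResidueField 𝒪)} {𝒟 : DefCond 𝒪}
  {DQ : GaloisRep.DeformationRingData 𝒪 ρbar 𝒟}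

attribute [local instance] Fermat.Agent.S56.tanAlgebra

/-- The traceless coordinates of the universal matrices at the pivots: index `(j, i)` with
`i < 3` belongs to `σ j`, index `(j, 3 + i)` to `φ j`. -/
def locX (F : UFrame DQ) {κ : Type} (φ σ : κ → GQ) (h : DQ.R) : κ × Fin 6 → DQ.R :=
  fun z => (Fin.append (tcoord h (F.rR (σ z.1))) (tcoord h (F.rR (φ z.1))) :
    Fin (3 + 3) → DQ.R) z.2

theorem locX_castLE (F : UFrame DQ) {κ : Type} (φ σ : κ → GQ) (h : DQ.R) (j : κ) (i : Fin 3)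
    (h36 : 3 ≤ 6) :
    locX F φ σ h (j, Fin.castLE h36 i) = tcoord h (F.rR (σ j)) i :=
  Fin.append_left _ _ i

theorem locX_natAdd (F : UFrame DQ) {κ : Type} (φ σ : κ → GQ) (h : DQ.R) (j : κ) (i : Fin 3) :
    locX F φ σ h (j, Fin.natAdd 3 i) = tcoord h (F.rR (φ j)) i :=
  Fin.append_right _ _ i

theorem rb_eq_smul_one (F : UFrame DQ) (τ : GQ) (c : ResidueField 𝒪)
    (hτ : ρbar.ρ τ = c • (1 : Module.End (ResidueField 𝒪) ρbar.V)) :
    F.rb τ = c • (1 : Matrix (Fin 2) (Fin 2) (ResidueField 𝒪)) := by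
  apply rb_eq_of_rho_eq
  rw [hτ, matToEnd_smul_one]

theorem residue_rR_of_scalar (F : UFrame DQ) (τ : GQ) (c : ResidueField 𝒪)
    (hτ : ρbar.ρ τ = c • (1 : Module.End (ResidueField 𝒪) ρbar.V)) (i i' : Fin 2) :
    residue DQ.R (F.rR τ i i') =
      if i = i' then ResidueField.map (algebraMap 𝒪 DQ.R) c else 0 := by
  rw [residue_rR, rb_eq_smul_one F τ c hτ]
  by_cases h : i = i'
  · subst h; simp
  · simp [h]

theorem tcoord_mem_of_scalar (F : UFrame DQ) (h : DQ.R) (τ : GQ) (c : ResidueField 𝒪)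
    (hτ : ρbar.ρ τ = c • (1 : Module.End (ResidueField 𝒪) ρbar.V)) (i : Fin 3) :
    tcoord h (F.rR τ) i ∈ maximalIdeal DQ.R := by
  rw [← residue_eq_zero_iff]
  fin_cases i
  · show residue DQ.R (h * (F.rR τ 0 0 - F.rR τ 1 1)) = 0
    rw [map_mul, map_sub, residue_rR_of_scalar F τ c hτ, residue_rR_of_scalar F τ c hτ]
    simp
  · show residue DQ.R (F.rR τ 0 1) = 0
    rw [residue_rR_of_scalar F τ c hτ]
    simp
  · show residue DQ.R (F.rR τ 1 0) = 0
    rw [residue_rR_of_scalar F τ c hτ]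
    simp

theorem locX_mem (F : UFrame DQ) {κ : Type} (φ σ : κ → GQ) (h : DQ.R)
    (hφ : ∀ j, ∃ c : ResidueField 𝒪,
      ρbar.ρ (φ j) = c • (1 : Module.End (ResidueField 𝒪) ρbar.V))
    (hσ : ∀ j, ρbar.ρ (σ j) = 1) (z : κ × Fin 6) :
    locX F φ σ h z ∈ maximalIdeal DQ.R := by
  obtain ⟨j, i⟩ := z
  have hσ' : ρbar.ρ (σ j) = (1 : ResidueField 𝒪) • (1 : Module.End (ResidueField 𝒪) ρbar.V) := by
    rw [hσ j, one_smul]
  obtain ⟨c, hc⟩ := hφ j
  refine Fin.addCases (m := 3) (n := 3)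
    (motive := fun i => locX F φ σ h (j, i) ∈ maximalIdeal DQ.R) (fun i => ?_) (fun i => ?_) i
  · show (Fin.append (tcoord h (F.rR (σ j))) (tcoord h (F.rR (φ j))) :
      Fin (3 + 3) → DQ.R) (Fin.castAdd 3 i) ∈ _
    rw [Fin.append_left]
    exact tcoord_mem_of_scalar F h _ 1 hσ' i
  · show (Fin.append (tcoord h (F.rR (σ j))) (tcoord h (F.rR (φ j))) :
      Fin (3 + 3) → DQ.R) (Fin.natAdd 3 i) ∈ _
    rw [Fin.append_right]
    exact tcoord_mem_of_scalar F h _ c hc i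

theorem halfTr_sub_mem (F : UFrame DQ) (h : 𝒪) (hh : 2 * h = 1) (τ : GQ) (ε : 𝒪)
    (hτ : ρbar.ρ τ = residue 𝒪 ε • (1 : Module.End (ResidueField 𝒪) ρbar.V)) :
    halfTr (algebraMap 𝒪 DQ.R h) (F.rR τ) - algebraMap 𝒪 DQ.R ε ∈ maximalIdeal DQ.R := by
  have hhR : 2 * algebraMap 𝒪 DQ.R h = 1 := by
    rw [← map_ofNat (algebraMap 𝒪 DQ.R) 2, ← map_mul, hh, map_one]
  have hm : ∀ i : Fin 2, F.rR τ i i - algebraMap 𝒪 DQ.R ε ∈ maximalIdeal DQ.R := by
    intro i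
    rw [← residue_eq_zero_iff, map_sub, residue_rR_of_scalar F τ _ hτ, if_pos rfl,
      ResidueField.map_residue, sub_self]
  have h1 : halfTr (algebraMap 𝒪 DQ.R h) (F.rR τ) - algebraMap 𝒪 DQ.R ε =
      algebraMap 𝒪 DQ.R h * ((F.rR τ 0 0 - algebraMap 𝒪 DQ.R ε) +
        (F.rR τ 1 1 - algebraMap 𝒪 DQ.R ε)) := by
    rw [halfTr]
    linear_combination (algebraMap 𝒪 DQ.R ε) * hhR
  rw [h1]
  exact Ideal.mul_mem_left _ _ (Ideal.add_mem _ (hm 0) (hm 1))

/-- All entries of a universal matrix `F.rR τ` with scalar residue, determinant `d ≡ 1` and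
traceless coordinates in the image of the evaluation map lie in that image. -/
theorem entries_mem_range_of_scalar (F : UFrame DQ) {ι : Type} [Finite ι] (x : ι → DQ.R)
    (hx : ∀ i, x i ∈ maximalIdeal DQ.R) (h : 𝒪) (hh : 2 * h = 1) (τ : GQ) (ε : 𝒪)
    (hε : ε ^ 2 = 1)
    (hτ : ρbar.ρ τ = residue 𝒪 ε • (1 : Module.End (ResidueField 𝒪) ρbar.V))
    (d : 𝒪) (hd : d - 1 ∈ maximalIdeal 𝒪) (hdet : (F.rR τ).det = algebraMap 𝒪 DQ.R d)
    (v : Fin 3 → MvPowerSeries ι 𝒪) (hv : ∀ i, v i ∈ maximalIdeal (MvPowerSeries ι 𝒪))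
    (hev : ∀ i, evalCNL (R := 𝒪) (maximalIdeal DQ.R) x hx (v i) =
      tcoord (algebraMap 𝒪 DQ.R h) (F.rR τ) i) (i i' : Fin 2) :
    F.rR τ i i' ∈ Set.range (evalCNL (R := 𝒪) (maximalIdeal DQ.R) x hx) := by
  have hlocR : IsLocalHom (algebraMap 𝒪 DQ.R) := DQ.instIsLocalHom
  have hhR : 2 * algebraMap 𝒪 DQ.R h = 1 := by
    rw [← map_ofNat (algebraMap 𝒪 DQ.R) 2, ← map_mul, hh, map_one]
  have h2 : IsUnit (2 : 𝒪) := IsUnit.of_mul_eq_one h hh
  -- the half-trace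
  have hhalf : halfTr (algebraMap 𝒪 DQ.R h) (F.rR τ) ∈
      Set.range (evalCNL (R := 𝒪) (maximalIdeal DQ.R) x hx) := by
    refine mem_range_evalCNL_of_sq hlocR x hx h2
      (algebraMap 𝒪 (MvPowerSeries ι 𝒪) d + (v 0 ^ 2 + v 1 * v 2)) ?_ ε hε _ ?_
      (halfTr_sub_mem F h hh τ ε hτ)
    · have h3 : algebraMap 𝒪 (MvPowerSeries ι 𝒪) d + (v 0 ^ 2 + v 1 * v 2) - 1 =
          algebraMap 𝒪 (MvPowerSeries ι 𝒪) (d - 1) + (v 0 ^ 2 + v 1 * v 2) := by
        rw [map_sub, map_one]; ring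
      rw [h3]
      refine Ideal.add_mem _ ?_ (Ideal.add_mem _ (Ideal.pow_mem_of_mem _ (hv 0) 2 (by norm_num))
        (Ideal.mul_mem_right _ _ (hv 1)))
      rw [← MvPowerSeries.c_eq_algebraMap]
      exact C_mem_maximalIdeal_mvPowerSeries hd
    · rw [halfTr_sq hhR, hdet, map_add, map_add, map_pow, map_mul, AlgHom.commutes, hev, hev,
        hev, qForm]
  have hmem : ∀ i, tcoord (algebraMap 𝒪 DQ.R h) (F.rR τ) i ∈
      (evalCNL (R := 𝒪) (maximalIdeal DQ.R) x hx).range := fun i => ⟨v i, hev i⟩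
  have hhalf' : halfTr (algebraMap 𝒪 DQ.R h) (F.rR τ) ∈
      (evalCNL (R := 𝒪) (maximalIdeal DQ.R) x hx).range := hhalf
  show F.rR τ i i' ∈ ((evalCNL (R := 𝒪) (maximalIdeal DQ.R) x hx).range : Set DQ.R)
  fin_cases i <;> fin_cases i'
  · show F.rR τ 0 0 ∈ _
    rw [apply_zero_zero_eq hhR (F.rR τ)]
    exact Subalgebra.add_mem _ hhalf' (hmem 0)
  · exact hmem 1
  · exact hmem 2
  · show F.rR τ 1 1 ∈ _
    rw [apply_one_one_eq hhR (F.rR τ)]
    exact Subalgebra.sub_mem _ hhalf' (hmem 0)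

/-- A scalar residue of a matrix with determinant `≡ 1` is a sign. -/
theorem exists_sign_of_scalar (F : UFrame DQ) (τ : GQ) (c : ResidueField 𝒪)
    (hτ : ρbar.ρ τ = c • (1 : Module.End (ResidueField 𝒪) ρbar.V))
    (d : 𝒪) (hd : d - 1 ∈ maximalIdeal 𝒪) (hdet : (F.rR τ).det = algebraMap 𝒪 DQ.R d) :
    ∃ ε : 𝒪, ε ^ 2 = 1 ∧ c = residue 𝒪 ε := by
  have h1 : residue DQ.R ((F.rR τ).det) = 1 := by
    rw [hdet, ← ResidueField.map_residue]
    have : residue 𝒪 d = 1 := by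
      rw [← sub_eq_zero, ← map_one (residue 𝒪), ← map_sub, residue_eq_zero_iff]
      exact hd
    rw [this, map_one]
  rw [Matrix.det_fin_two, map_sub, map_mul, map_mul, residue_rR_of_scalar F τ c hτ,
    residue_rR_of_scalar F τ c hτ, residue_rR_of_scalar F τ c hτ,
    residue_rR_of_scalar F τ c hτ] at h1
  simp only [if_true, Fin.isValue, zero_ne_one, one_ne_zero, if_false, mul_zero, sub_zero] at h1
  have h2 : c * c = 1 := by
    apply (ResidueField.map (algebraMap 𝒪 DQ.R)).injective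
    rw [map_mul, h1, map_one]
  have h3 : c = 1 ∨ c = -1 := by
    have h4 : (c - 1) * (c + 1) = 0 := by
      have : (c - 1) * (c + 1) = c * c - 1 := by ring
      rw [this, h2, sub_self]
    rcases mul_eq_zero.mp h4 with h5 | h5
    · exact Or.inl (sub_eq_zero.mp h5)
    · exact Or.inr (eq_neg_of_add_eq_zero_left h5)
  rcases h3 with rfl | rfl
  · exact ⟨1, one_pow 2, (map_one _).symm⟩
  · exact ⟨-1, by ring, by rw [map_neg, map_one]⟩

/-- **All entries of the universal matrices at the pivots are power series in the traceless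
coordinates.** -/
theorem entries_mem_range_locX (F : UFrame DQ) {κ : Type} [Finite κ] (φ σ : κ → GQ)
    (qn : κ → ℕ) (h : 𝒪) (hh : 2 * h = 1)
    (hφ : ∀ j, ∃ c : ResidueField 𝒪,
      ρbar.ρ (φ j) = c • (1 : Module.End (ResidueField 𝒪) ρbar.V))
    (hσ : ∀ j, ρbar.ρ (σ j) = 1)
    (hq : ∀ j, ((qn j : ℕ) : 𝒪) - 1 ∈ maximalIdeal 𝒪)
    (hdetφ : ∀ j, (F.rR (φ j)).det = ((qn j : ℕ) : DQ.R))
    (hdetσ : ∀ j, (F.rR (σ j)).det = 1) (j : κ) (i i' : Fin 2) :
    F.rR (φ j) i i' ∈ Set.range (evalCNL (R := 𝒪) (maximalIdeal DQ.R)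
        (locX F φ σ (algebraMap 𝒪 DQ.R h)) (locX_mem F φ σ _ hφ hσ)) ∧
      F.rR (σ j) i i' ∈ Set.range (evalCNL (R := 𝒪) (maximalIdeal DQ.R)
        (locX F φ σ (algebraMap 𝒪 DQ.R h)) (locX_mem F φ σ _ hφ hσ)) := by
  constructor
  · obtain ⟨c, hc⟩ := hφ j
    have hdet' : (F.rR (φ j)).det = algebraMap 𝒪 DQ.R ((qn j : ℕ) : 𝒪) := by
      rw [hdetφ j, map_natCast]
    obtain ⟨ε, hε, rfl⟩ := exists_sign_of_scalar F (φ j) c hc _ (hq j) hdet'
    refine entries_mem_range_of_scalar F _ _ h hh (φ j) ε hε hc _ (hq j) hdet'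
      (fun i => MvPowerSeries.X (j, Fin.natAdd 3 i))
      (fun i => X_mem_maximalIdeal_mvPowerSeries _) (fun i => ?_) i i'
    rw [evalCNL_X, locX_natAdd]
  · have hσ' : ρbar.ρ (σ j) =
        residue 𝒪 1 • (1 : Module.End (ResidueField 𝒪) ρbar.V) := by
      rw [hσ j, map_one, one_smul]
    refine entries_mem_range_of_scalar F _ _ h hh (σ j) 1 (one_pow 2) hσ' 1
      (by rw [sub_self]; exact zero_mem _) (by rw [hdetσ j, map_one])
      (fun i => MvPowerSeries.X (j, Fin.castLE (by norm_num) i))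
      (fun i => X_mem_maximalIdeal_mvPowerSeries _) (fun i => ?_) i i'
    rw [evalCNL_X, locX_castLE]

/-- The traceless-coordinate clauses of `IAGalStatement` for a map `γ` whose values at the
variables are the traceless coordinates. -/
theorem isTracelessCoords_of_locX (F : UFrame DQ) {κ : Type} (φ σ : κ → GQ) (h : DQ.R)
    (hh : 2 * h = 1) (g : ℕ) (γ : IA.LocAmb 𝒪 κ g →ₐ[𝒪] DQ.R)
    (hγ : ∀ z, γ (MvPowerSeries.X (Sum.inl z)) = locX F φ σ h z) (j : κ) :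
    IA.IsTracelessCoords F.basis (DQ.ρ.ρ (σ j)) (fun i => γ (IA.vVar 𝒪 g j i)) ∧
      IA.IsTracelessCoords F.basis (DQ.ρ.ρ (φ j)) (fun i => γ (IA.wVar 𝒪 g j i)) := by
  have hv : ∀ i, γ (IA.vVar 𝒪 g j i) = tcoord h (F.rR (σ j)) i := by
    intro i
    rw [IA.vVar, hγ, locX_castLE]
  have hw : ∀ i, γ (IA.wVar 𝒪 g j i) = tcoord h (F.rR (φ j)) i := by
    intro i
    rw [IA.wVar, hγ, locX_natAdd]
  refine ⟨?_, ?_⟩
  · unfold IA.IsTracelessCoords
    simp only [hv, F.toMatrix_basis]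
    exact ⟨two_mul_tcoord_zero hh _, rfl, rfl⟩
  · unfold IA.IsTracelessCoords
    simp only [hw, F.toMatrix_basis]
    exact ⟨two_mul_tcoord_zero hh _, rfl, rfl⟩

/-- **(COORD), `B`-form.**  If the universal deformation ring is a quotient of `B⟦x₁..x_g⟧` for
every complete Noetherian local `𝒪`-algebra `B` over which the universal matrices at the pivots
are defined (the body of helper1's `IAGalAt`), then it is a quotient of
`LocAmb 𝒪 κ g = 𝒪⟦v_{j,·}, w_{j,·}, x₁..x_g⟧`, the variables `v_{j,·}`, `w_{j,·}` going to the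
traceless coordinates of `ρ(σ j)`, `ρ(φ j)` in the basis `F.basis`. -/
theorem exists_locAmb_of_bform (F : UFrame DQ) {κ : Type} [Finite κ] (φ σ : κ → GQ)
    (qn : κ → ℕ) (h2 : IsUnit (2 : 𝒪))
    (hφ : ∀ j, ∃ c : ResidueField 𝒪,
      ρbar.ρ (φ j) = c • (1 : Module.End (ResidueField 𝒪) ρbar.V))
    (hσ : ∀ j, ρbar.ρ (σ j) = 1)
    (hq : ∀ j, ((qn j : ℕ) : 𝒪) - 1 ∈ maximalIdeal 𝒪)
    (hdetφ : ∀ j, LinearMap.det (DQ.ρ.ρ (φ j)) = ((qn j : ℕ) : DQ.R))
    (hdetσ : ∀ j, LinearMap.det (DQ.ρ.ρ (σ j)) = 1) (g : ℕ)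
    (hB : ∀ (B : Type) [CommRing B] [IsLocalRing B] [Algebra 𝒪 B] [Algebra B DQ.R]
      [IsScalarTower 𝒪 B DQ.R] [IsNoetherianRing B] [IsAdicComplete (maximalIdeal B) B],
      (∀ j i i', F.rR (φ j) i i' ∈ Set.range (algebraMap B DQ.R) ∧
        F.rR (σ j) i i' ∈ Set.range (algebraMap B DQ.R)) →
      ∃ γ : MvPowerSeries (Fin g) B →ₐ[B] DQ.R, Function.Surjective γ) :
    ∃ γ : IA.LocAmb 𝒪 κ g →ₐ[𝒪] DQ.R, Function.Surjective γ ∧
      (∀ τ, LinearMap.toMatrix F.basis F.basis (DQ.ρ.ρ τ) = F.rR τ) ∧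
      (∀ j, IA.IsTracelessCoords F.basis (DQ.ρ.ρ (σ j)) (fun i => γ (IA.vVar 𝒪 g j i))) ∧
      (∀ j, IA.IsTracelessCoords F.basis (DQ.ρ.ρ (φ j)) (fun i => γ (IA.wVar 𝒪 g j i))) := by
  obtain ⟨h, hh⟩ := h2.exists_right_inv
  have hhR : 2 * algebraMap 𝒪 DQ.R h = 1 := by
    rw [← map_ofNat (algebraMap 𝒪 DQ.R) 2, ← map_mul, hh, map_one]
  have hx := locX_mem F φ σ (algebraMap 𝒪 DQ.R h) hφ hσ
  have hent := entries_mem_range_locX F φ σ qn h hh hφ hσ hq
    (fun j => by rw [F.det_rR, hdetφ j]) (fun j => by rw [F.det_rR, hdetσ j])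
  obtain ⟨γ, hγs, hγ⟩ := exists_surjective_sum (𝒪 := 𝒪) (locX F φ σ (algebraMap 𝒪 DQ.R h)) hx
    DQ.residue_surjective g (by
      letI : Algebra (MvPowerSeries (κ × Fin 6) 𝒪) DQ.R :=
        (evalCNL (R := 𝒪) (maximalIdeal DQ.R) (locX F φ σ (algebraMap 𝒪 DQ.R h)) hx :
          MvPowerSeries (κ × Fin 6) 𝒪 →+* DQ.R).toAlgebra
      haveI : IsScalarTower 𝒪 (MvPowerSeries (κ × Fin 6) 𝒪) DQ.R :=
        IsScalarTower.of_algebraMap_eq fun a =>
          ((evalCNL (R := 𝒪) (maximalIdeal DQ.R)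
            (locX F φ σ (algebraMap 𝒪 DQ.R h)) hx).commutes a).symm
      haveI : IsAdicComplete (maximalIdeal (MvPowerSeries (κ × Fin 6) 𝒪))
          (MvPowerSeries (κ × Fin 6) 𝒪) := isAdicComplete_mvPowerSeries
      exact hB (MvPowerSeries (κ × Fin 6) 𝒪) fun j i i' => hent j i i')
  exact ⟨γ, hγs, F.toMatrix_basis,
    fun j => (isTracelessCoords_of_locX F φ σ _ hhR g γ hγ j).1,
    fun j => (isTracelessCoords_of_locX F φ σ _ hhR g γ hγ j).2⟩

/-- **(COORD), from the relative Selmer bound.** -/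
theorem exists_locAmb_of_relSelCob [Finite (ResidueField 𝒪)]
    (p : ℕ) (hp : p.Prime)
    (hdet : ∀ ρ' : GaloisRepAdic (DualNumber (ResidueField 𝒪)), 𝒟 ρ' → ρ'.DetIsCyclotomic p)
    (hbc : ∀ (ψ : TanHom 𝒪 DQ.R)
      (hψ : IsLocalHom (ψ : DQ.R →+* DualNumber (ResidueField 𝒪))), Function.Surjective ψ →
      𝒟 (DQ.ρ.baseChangeAlong (ψ : DQ.R →+* DualNumber (ResidueField 𝒪)) hψ))
    (F : UFrame DQ) {κ : Type} [Finite κ] (φ σ : κ → GQ)
    (qn : κ → ℕ) (h2 : IsUnit (2 : 𝒪))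
    (hφ : ∀ j, ∃ c : ResidueField 𝒪,
      ρbar.ρ (φ j) = c • (1 : Module.End (ResidueField 𝒪) ρbar.V))
    (hσ : ∀ j, ρbar.ρ (σ j) = 1)
    (hq : ∀ j, ((qn j : ℕ) : 𝒪) - 1 ∈ maximalIdeal 𝒪)
    (hdetφ : ∀ j, LinearMap.det (DQ.ρ.ρ (φ j)) = ((qn j : ℕ) : DQ.R))
    (hdetσ : ∀ j, LinearMap.det (DQ.ρ.ρ (σ j)) = 1) (g : ℕ)
    (hsel : RelSelCob 𝒪 ρbar 𝒟 (Set.range φ ∪ Set.range σ) g) :
    ∃ γ : IA.LocAmb 𝒪 κ g →ₐ[𝒪] DQ.R, Function.Surjective γ ∧
      (∀ τ, LinearMap.toMatrix F.basis F.basis (DQ.ρ.ρ τ) = F.rR τ) ∧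
      (∀ j, IA.IsTracelessCoords F.basis (DQ.ρ.ρ (σ j)) (fun i => γ (IA.vVar 𝒪 g j i))) ∧
      (∀ j, IA.IsTracelessCoords F.basis (DQ.ρ.ρ (φ j)) (fun i => γ (IA.wVar 𝒪 g j i))) := by
  refine exists_locAmb_of_bform F φ σ qn h2 hφ hσ hq hdetφ hdetσ g ?_
  intro B _ _ _ _ _ _ _ hBr
  refine exists_surjective_of_relSelCob (B := B) p hp hdet hbc F _ ?_ g hsel
  rintro τ (⟨j, rfl⟩ | ⟨j, rfl⟩) i i'
  · exact (hBr j i i').1
  · exact (hBr j i i').2

end Main

end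

end Fermat.Agent.S38.H953
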