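import Fermat.Agent.S38.IA.Gal.IAGalSpec
import Fermat.Agent.S38.IA.H474.TypeClause
import Fermat.Agent.S38.H953.LocAmbPres

/-!
# Row HARD, leaf GAL: from the integrator's output to the frozen `IA.IAGalStatement` (helper953)

`Fermat.Agent.S38.IA.Gal.IAGalStatement` (helper1, `S38/IA/Gal/IAGalSpec.lean`, board v3 §3.1:
matrix frame `F`, pivot relations `IsPivotPres`, clause UNIP) implies the frozen leaf
`Fermat.Agent.S38.IA.IAGalStatement` of the trunk (`S38/IA/Spec2.lean`: basis `bas`,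
`IsTracelessCoords`, determinant clause, clause TYPE):

* the basis is `F.basis` (`UFrame.toMatrix_basis`: the matrices of the universal deformation in
  this basis are `F.rR`);
* clause TYPE is helper474's `type_clause_end` (`S38/IA/H474/TypeClause.lean`); its hypothesis
  "`ρ_y(σ_q)` is not unipotent" is the contrapositive of clause UNIP.

Nothing unproved in this file.
-/

set_option autoImplicit false
set_option linter.unusedSectionVars false
set_option linter.unusedVariables false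
set_option linter.style.haveILetI false

namespace Fermat.Agent.S38.H953

noncomputable section

open IsLocalRing Polynomial
open Fermat.Agent.S56

section Adapter

variable {𝒪 : Type} [CommRing 𝒪] [IsDomain 𝒪] [IsDiscreteValuationRing 𝒪]
  [IsAdicComplete (maximalIdeal 𝒪) 𝒪]
  {ρbar : ResidualGaloisRep (ResidueField 𝒪)} {𝒟 : DefCond 𝒪}
  {DQ : GaloisRep.DeformationRingData 𝒪 ρbar 𝒟}

theorem isTracelessCoords_of_isTraceless (F : UFrame DQ) (τ : GQ) (u : Fin 3 → DQ.R)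
    (h : IA.Gal.IsTraceless (F.rR τ) (u 0) (u 1) (u 2)) :
    IA.IsTracelessCoords F.basis (DQ.ρ.ρ τ) u := by
  unfold IA.IsTracelessCoords
  rw [F.toMatrix_basis]
  exact h

/-- The tame relation for the endomorphisms, from the relation for the matrices. -/
theorem rho_mul_eq_of_rR (F : UFrame DQ) (φ σ : GQ) (q : ℕ)
    (h : F.rR φ * F.rR σ = F.rR σ ^ q * F.rR φ) :
    DQ.ρ.ρ φ * DQ.ρ.ρ σ = DQ.ρ.ρ σ ^ q * DQ.ρ.ρ φ := by
  apply (LinearMap.toMatrix F.basis F.basis).injective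
  rw [LinearMap.toMatrix_mul, LinearMap.toMatrix_mul, ← LinearMap.toMatrix_pow, F.toMatrix_basis,
    F.toMatrix_basis, h]

end Adapter

/-- **The frozen leaf GAL of the trunk from the integrator's output.** -/
theorem iaGal_of_gal (h : IA.Gal.IAGalStatement) : IA.IAGalStatement := by
  intro p _ 𝒪 _ _ _ _ _ _ ρbar Smin hres hflat Piv hPiv hroots
  have hp : p.Prime := Fact.out
  obtain ⟨r, Pl, φ, σ, a, h3, htame, hn⟩ := h p 𝒪 ρbar Smin hres .flat (Or.inl rfl) Piv hPiv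
  refine ⟨r, h3, fun n => ?_⟩
  obtain ⟨qv, hTW, hDQ⟩ := hn n
  refine ⟨qv, hTW, fun DQ => ?_⟩
  obtain ⟨F, γ, hγ, hpiv⟩ := hDQ DQ
  have hv : ∀ q : Piv, IA.IsTracelessCoords F.basis (DQ.ρ.ρ (σ q))
      (fun j => γ (IA.vVar 𝒪 (r - 3 * Piv.card) q j)) := fun q =>
    isTracelessCoords_of_isTraceless F (σ q) _ (hpiv q).sig_traceless
  have hw : ∀ q : Piv, IA.IsTracelessCoords F.basis (DQ.ρ.ρ (φ q))
      (fun j => γ (IA.wVar 𝒪 (r - 3 * Piv.card) q j)) := fun q =>
    isTracelessCoords_of_isTraceless F (φ q) _ (hpiv q).phi_traceless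
  have hdetφ : ∀ q : Piv, LinearMap.det (DQ.ρ.ρ (φ q)) = ((q : ℕ) : DQ.R) := fun q => by
    rw [← F.det_rR, (hpiv q).det_phi]
  have hdetσ : ∀ q : Piv, LinearMap.det (DQ.ρ.ρ (σ q)) = 1 := fun q => by
    rw [← F.det_rR, (hpiv q).det_sig]
  refine ⟨F.basis, fun q => Pl q, fun q => φ q, fun q => σ q, γ, hγ,
    fun q => ⟨(htame q q.2).1, (htame q q.2).2.1.frob, (htame q q.2).2.1.mem⟩,
    hv, hw, hdetφ, ?_⟩
  intro 𝒪' _ _ _ _ _ y hy hNU
  have hlocR : IsLocalHom (algebraMap 𝒪 DQ.R) := DQ.instIsLocalHom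
  -- `p` lies in the maximal ideal of `𝒪'`
  have hmem : ∀ z : DQ.R, z ∈ maximalIdeal DQ.R → y z ∈ maximalIdeal 𝒪' := by
    intro z hz
    rw [mem_maximalIdeal, mem_nonunits_iff] at hz ⊢
    intro hu
    exact hz (hy.map_nonunit z hu)
  have hpR : (p : DQ.R) ∈ maximalIdeal DQ.R := by
    rw [mem_maximalIdeal, mem_nonunits_iff]
    intro hu
    have h1 : IsUnit (algebraMap 𝒪 DQ.R (p : 𝒪)) := by rwa [map_natCast]
    exact (mem_maximalIdeal _).1 hres.hp𝒪 (hlocR.map_nonunit _ h1)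
  have hpm : (p : 𝒪') ∈ maximalIdeal 𝒪' := by
    have := hmem _ hpR
    rwa [map_natCast] at this
  refine IA.H474.type_clause_end p hres.hp2 𝒪 hres.hp𝒪 Piv
    (fun q hq => ⟨(hPiv q hq).1, (hPiv q hq).2.2.1⟩) hroots (r - 3 * Piv.card) γ F.basis
    (fun q => DQ.ρ.ρ (σ q)) (fun q => DQ.ρ.ρ (φ q)) hv hw hdetσ
    (fun q => rho_mul_eq_of_rR F (φ q) (σ q) q (hpiv q).rel)
    𝒪' y (maximalIdeal 𝒪') (Ideal.IsPrime.ne_top') hpm
    (Nat.cast_ne_zero.mpr hp.ne_zero) ?_ ?_ ?_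
  · intro q
    rw [hdetφ q, map_natCast]
    exact Nat.cast_ne_zero.mpr (hPiv q q.2).1.ne_zero
  · intro q i j
    rw [F.toMatrix_basis]
    exact hmem _ ((hpiv q).sig_res i j)
  · intro q hcp
    apply hNU q q.2
    apply (hpiv q).unip 𝒪' (y : DQ.R →+* 𝒪') hy
    have hdet1 : ((F.rR (σ q)).map (y : DQ.R →+* 𝒪')).det = 1 := by
      have e : ((F.rR (σ q)).map (y : DQ.R →+* 𝒪')).det =
          (y : DQ.R →+* 𝒪') (F.rR (σ q)).det := (RingHom.map_det _ _).symm
      rw [e, (hpiv q).det_sig, map_one]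
    rw [← IA.H474.charpoly_eq_sq_iff_trace _ hdet1, Matrix.charpoly_map,
      ← F.toMatrix_basis (σ q), LinearMap.charpoly_toMatrix]
    exact hcp

end

end Fermat.Agent.S38.H953
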