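import Fermat.Agent.S38.H953.FrDict

/-!
# Route T (Ihara avoidance), Galois side: the RELATIVE presentation (helper953)

`DQ` a universal deformation ring of type `𝒟`, `F : UFrame DQ`, `R□ = DQ.R⟦Y₀, Y₁, Y₂⟧`,
`r□ = framedRep F`.  Let `B` be a complete Noetherian local `𝒪`-algebra (the local framed ring)
and let `R□` be a `B`-algebra such that the entries of `r□(σ)`, `σ ∈ D` (the decomposition group),
come from `B`.

* `RelSel 𝒪 ρbar 𝒟 D r` (REL-SEL, the input from Galois cohomology): the tangent cocycles of type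
  `𝒟` (and the cocycles which are coboundaries) VANISHING on `D` lie in a `k`-space of dimension
  `≤ r`;
* `exists_surjective_of_relSel` (REL-P1): `RelSel ⟹ B⟦x₁, …, x_r⟧ ↠ R□`.

Nothing unproved in this file.
-/

set_option autoImplicit false
set_option linter.unusedSectionVars false
set_option linter.unusedVariables false
set_option linter.style.haveILetI false

namespace Fermat.Agent.S38.H953

noncomputable section

open IsLocalRing TrivSqZeroExt
open Fermat.Agent.S56 Fermat.Agent.S56.H716 Fermat.Agent.S56.H596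

/-! ### Change of field in the dual numbers -/

section DualMap

variable {K K' : Type} [Field K] [Field K']

/-- The ring homomorphism `K[ε] → K'[ε]` induced by `K → K'`. -/
def dualMap (f : K →+* K') : DualNumber K →+* DualNumber K' where
  toFun z := TrivSqZeroExt.inl (f (TrivSqZeroExt.fst z)) + TrivSqZeroExt.inr (f (TrivSqZeroExt.snd z))
  map_one' := by
    ext <;> simp
  map_mul' x y := by
    ext <;> simp
  map_zero' := by
    ext <;> simp
  map_add' x y := by
    ext <;> simp

@[simp] theorem fst_dualMap (f : K →+* K') (z : DualNumber K) :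
    TrivSqZeroExt.fst (dualMap f z) = f (TrivSqZeroExt.fst z) := by
  simp [dualMap]

@[simp] theorem snd_dualMap (f : K →+* K') (z : DualNumber K) :
    TrivSqZeroExt.snd (dualMap f z) = f (TrivSqZeroExt.snd z) := by
  simp [dualMap]

theorem dualMap_inl (f : K →+* K') (a : K) :
    dualMap f (TrivSqZeroExt.inl a) = TrivSqZeroExt.inl (f a) := by
  ext <;> simp

theorem dualMap_injective (f : K →+* K') : Function.Injective (dualMap f) := by
  intro x y h
  ext
  · exact f.injective (by simpa using congrArg TrivSqZeroExt.fst h)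
  · exact f.injective (by simpa using congrArg TrivSqZeroExt.snd h)

end DualMap

/-! ### The relative Selmer bound (frozen shape) -/

section RelSelDef

variable (𝒪 : Type) [CommRing 𝒪] [IsLocalRing 𝒪]
  (ρbar : ResidualGaloisRep (ResidueField 𝒪))

/-- **(REL-SEL)** the tangent cocycles of type `𝒟`, and the cocycles which are coboundaries,
which VANISH (as functions) on the set `D` lie in a `k`-space of cocycles of dimension `≤ r`. -/
def RelSel (𝒟 : DefCond 𝒪) (D : Set GQ) (r : ℕ) : Prop :=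
  ∃ T : Submodule (ResidueField 𝒪) (GQ → Module.End (ResidueField 𝒪) ρbar.V),
    Module.Finite (ResidueField 𝒪) T ∧ Module.finrank (ResidueField 𝒪) T ≤ r ∧
    ∀ c, (IsTanCocycle 𝒪 ρbar 𝒟 c ∨ (IsAdCocycle ρbar c ∧ IsAdCoboundary ρbar c)) →
      (∀ σ ∈ D, c σ = 0) → c ∈ T

end RelSelDef

/-! ### The relative presentation -/

section Rel

variable {𝒪 : Type} [CommRing 𝒪] [IsDomain 𝒪] [IsDiscreteValuationRing 𝒪]
  [IsAdicComplete (maximalIdeal 𝒪) 𝒪]
  {ρbar : ResidualGaloisRep (ResidueField 𝒪)} {𝒟 : DefCond 𝒪}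
  {DQ : GaloisRep.DeformationRingData 𝒪 ρbar 𝒟}

attribute [local instance] Fermat.Agent.S56.tanAlgebra

theorem residue_surjective_frRing :
    Function.Surjective (residue (MvPowerSeries (Fin 3) DQ.R) ∘
      algebraMap 𝒪 (MvPowerSeries (Fin 3) DQ.R)) := by
  intro y
  obtain ⟨x, hx⟩ := Fermat.Agent.S53.H596.residue_surjective_mvPowerSeries (σ := Fin 3)
    (R := DQ.R) y
  obtain ⟨a, ha⟩ := DQ.residue_surjective (residue DQ.R x)
  refine ⟨a, ?_⟩
  rw [Function.comp_apply] at hx ha ⊢
  rw [← hx, ← sub_eq_zero, ← map_sub, residue_eq_zero_iff, MvPowerSeries.algebraMap_apply,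
    ← MvPowerSeries.c_eq_algebraMap, ← map_sub]
  have h1 : algebraMap 𝒪 DQ.R a - x ∈ maximalIdeal DQ.R := by
    rw [← residue_eq_zero_iff, map_sub, ha, sub_self]
  exact Fermat.Agent.S53.H596.C_mem_maximalIdeal_mvPowerSeries h1

variable (B : Type) [CommRing B] [IsLocalRing B] [Algebra 𝒪 B]
  [Algebra B (MvPowerSeries (Fin 3) DQ.R)] [IsScalarTower 𝒪 B (MvPowerSeries (Fin 3) DQ.R)]

theorem isLocalHom_base :
    IsLocalHom (algebraMap B (MvPowerSeries (Fin 3) DQ.R)) :=
  isLocalHom_of_residue_surjective (residue_surjective_frRing (DQ := DQ))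
    (IsScalarTower.toAlgHom 𝒪 B (MvPowerSeries (Fin 3) DQ.R))

theorem residue_surjective_base :
    Function.Surjective (residue (MvPowerSeries (Fin 3) DQ.R) ∘
      algebraMap B (MvPowerSeries (Fin 3) DQ.R)) := by
  intro y
  obtain ⟨a, ha⟩ := residue_surjective_frRing (DQ := DQ) y
  refine ⟨algebraMap 𝒪 B a, ?_⟩
  rw [Function.comp_apply] at ha ⊢
  rw [← ha, ← IsScalarTower.algebraMap_apply]

theorem isLocalHom_to_base (DQ : GaloisRep.DeformationRingData 𝒪 ρbar 𝒟)
    [Algebra B (MvPowerSeries (Fin 3) DQ.R)] [IsScalarTower 𝒪 B (MvPowerSeries (Fin 3) DQ.R)] :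
    IsLocalHom (algebraMap 𝒪 B) := by
  refine ⟨fun a ha => ?_⟩
  have h1 : IsUnit (algebraMap 𝒪 (MvPowerSeries (Fin 3) DQ.R) a) := by
    rw [IsScalarTower.algebraMap_apply 𝒪 B (MvPowerSeries (Fin 3) DQ.R)]
    exact ha.map _
  rw [MvPowerSeries.algebraMap_apply, MvPowerSeries.isUnit_iff_constantCoeff,
    MvPowerSeries.constantCoeff_C] at h1
  exact isUnit_of_map_unit (algebraMap 𝒪 DQ.R) a h1

theorem residue_surjective_to_base (DQ : GaloisRep.DeformationRingData 𝒪 ρbar 𝒟)
    [Algebra B (MvPowerSeries (Fin 3) DQ.R)] [IsScalarTower 𝒪 B (MvPowerSeries (Fin 3) DQ.R)] :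
    Function.Surjective (residue B ∘ algebraMap 𝒪 B) := by
  intro y
  obtain ⟨b, rfl⟩ := residue_surjective y
  obtain ⟨a, ha⟩ := residue_surjective_frRing (DQ := DQ)
    (residue _ (algebraMap B (MvPowerSeries (Fin 3) DQ.R) b))
  refine ⟨a, ?_⟩
  rw [Function.comp_apply] at ha ⊢
  rw [IsScalarTower.algebraMap_apply 𝒪 B (MvPowerSeries (Fin 3) DQ.R), ← sub_eq_zero, ← map_sub,
    ← map_sub, residue_eq_zero_iff] at ha
  rw [← sub_eq_zero, ← map_sub, residue_eq_zero_iff]
  by_contra hcon
  have hu : IsUnit (algebraMap 𝒪 B a - b) := by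
    by_contra hnu
    exact hcon ((mem_maximalIdeal _).2 hnu)
  exact (mem_maximalIdeal _).1 ha (hu.map _)

end Rel

/-! ### The main theorem -/

section Main

variable {𝒪 : Type} [CommRing 𝒪] [IsDomain 𝒪] [IsDiscreteValuationRing 𝒪]
  [IsAdicComplete (maximalIdeal 𝒪) 𝒪]
  {ρbar : ResidualGaloisRep (ResidueField 𝒪)} {𝒟 : DefCond 𝒪}

attribute [local instance] Fermat.Agent.S56.tanAlgebra

variable (B : Type) [CommRing B] [IsLocalRing B] [Algebra 𝒪 B]
  (DQ : GaloisRep.DeformationRingData 𝒪 ρbar 𝒟)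
  [Algebra B (MvPowerSeries (Fin 3) DQ.R)] [IsScalarTower 𝒪 B (MvPowerSeries (Fin 3) DQ.R)]

/-- The residue fields of `𝒪` and of the base `B` agree. -/
def resEquiv : ResidueField 𝒪 ≃+* ResidueField B :=
  haveI := isLocalHom_to_base B DQ
  RingEquiv.ofBijective (ResidueField.map (algebraMap 𝒪 B))
    ⟨(ResidueField.map (algebraMap 𝒪 B)).injective, fun y => by
      obtain ⟨a, ha⟩ := residue_surjective_to_base B DQ y
      exact ⟨residue 𝒪 a, by rw [ResidueField.map_residue]; exact ha⟩⟩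

theorem resEquiv_residue (a : 𝒪) :
    resEquiv B DQ (residue 𝒪 a) = residue B (algebraMap 𝒪 B a) := by
  haveI := isLocalHom_to_base B DQ
  exact ResidueField.map_residue (algebraMap 𝒪 B) a

theorem resEquiv_symm_residue (a : 𝒪) :
    (resEquiv B DQ).symm (residue B (algebraMap 𝒪 B a)) = residue 𝒪 a := by
  rw [← resEquiv_residue B DQ a, RingEquiv.symm_apply_apply]

/-- Transport of a tangent vector over `B` to a tangent vector over `𝒪`. -/
def tanOfBase (ψ : MvPowerSeries (Fin 3) DQ.R →ₐ[B] DualNumber (ResidueField B)) :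
    TanHom 𝒪 (MvPowerSeries (Fin 3) DQ.R) :=
  { toRingHom := (dualMap ((resEquiv B DQ).symm : ResidueField B →+* ResidueField 𝒪)).comp
      (ψ : MvPowerSeries (Fin 3) DQ.R →+* DualNumber (ResidueField B))
    commutes' := fun a => by
      show dualMap _ (ψ (algebraMap 𝒪 (MvPowerSeries (Fin 3) DQ.R) a)) = _
      rw [IsScalarTower.algebraMap_apply 𝒪 B (MvPowerSeries (Fin 3) DQ.R), AlgHom.commutes,
        tanAlgebra_algebraMap, dualMap_inl, tanAlgebra_algebraMap]
      congr 1
      exact resEquiv_symm_residue B DQ a }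

theorem tanOfBase_apply (ψ : MvPowerSeries (Fin 3) DQ.R →ₐ[B] DualNumber (ResidueField B))
    (f : MvPowerSeries (Fin 3) DQ.R) :
    tanOfBase B DQ ψ f =
      dualMap ((resEquiv B DQ).symm : ResidueField B →+* ResidueField 𝒪) (ψ f) := rfl

theorem tanOfBase_injective : Function.Injective (tanOfBase B DQ) := by
  intro ψ ψ' h
  apply AlgHom.ext
  intro f
  apply dualMap_injective ((resEquiv B DQ).symm : ResidueField B →+* ResidueField 𝒪)
  rw [← tanOfBase_apply, ← tanOfBase_apply, h]

theorem snd_tanOfBase_algebraMap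
    (ψ : MvPowerSeries (Fin 3) DQ.R →ₐ[B] DualNumber (ResidueField B)) (b : B) :
    TrivSqZeroExt.snd (tanOfBase B DQ ψ (algebraMap B (MvPowerSeries (Fin 3) DQ.R) b)) = 0 := by
  rw [tanOfBase_apply, AlgHom.commutes, tanAlgebra_algebraMap, dualMap_inl,
    TrivSqZeroExt.snd_inl]

variable {B} {DQ}

/-- **(REL-P1)** relative presentation of the ring framed at one place: if the tangent cocycles
of type `𝒟` vanishing on `D` form a space of dimension `≤ r`, and the framed universal matrices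
`r□(σ)`, `σ ∈ D`, have their entries in (the image of) the complete Noetherian local
`𝒪`-algebra `B`, then `DQ.R⟦Y₀, Y₁, Y₂⟧` is a quotient of `B⟦x₁, …, x_r⟧`. -/
theorem exists_surjective_of_relSel [Finite (ResidueField 𝒪)]
    [IsNoetherianRing B] [IsAdicComplete (maximalIdeal B) B]
    (p : ℕ) (hp : p.Prime)
    (hdet : ∀ ρ' : GaloisRepAdic (DualNumber (ResidueField 𝒪)), 𝒟 ρ' → ρ'.DetIsCyclotomic p)
    (hbc : ∀ (φ : TanHom 𝒪 DQ.R)
      (hφ : IsLocalHom (φ : DQ.R →+* DualNumber (ResidueField 𝒪))), Function.Surjective φ →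
      𝒟 (DQ.ρ.baseChangeAlong (φ : DQ.R →+* DualNumber (ResidueField 𝒪)) hφ))
    (F : UFrame DQ) (D : Set GQ)
    (hD : ∀ σ ∈ D, ∀ i j, framedRep F σ i j ∈
      Set.range (algebraMap B (MvPowerSeries (Fin 3) DQ.R)))
    (r : ℕ) (hsel : RelSel 𝒪 ρbar 𝒟 D r) :
    ∃ γ : MvPowerSeries (Fin r) B →ₐ[B] MvPowerSeries (Fin 3) DQ.R, Function.Surjective γ := by
  obtain ⟨T, hTfin, hTr, hT⟩ := hsel
  haveI := hTfin
  haveI : IsAdicComplete (maximalIdeal (MvPowerSeries (Fin 3) DQ.R))
      (MvPowerSeries (Fin 3) DQ.R) := Fermat.Agent.S53.H596.isAdicComplete_mvPowerSeries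
  haveI : Finite (ResidueField B) := Finite.of_equiv _ (resEquiv B DQ).toEquiv
  haveI : Finite T := Module.finite_of_finite (ResidueField 𝒪)
  have hmem : ∀ ψ : MvPowerSeries (Fin 3) DQ.R →ₐ[B] DualNumber (ResidueField B),
      frCoc F (tanOfBase B DQ ψ) ∈ T := by
    intro ψ
    refine hT _ (frCoc_type p hp hdet hbc F (tanOfBase B DQ ψ)) (fun σ hσ => ?_)
    refine frCoc_eq_zero F (tanOfBase B DQ ψ) σ (fun i j => ?_)
    obtain ⟨b, hb⟩ := hD σ hσ i j
    rw [← hb]
    exact snd_tanOfBase_algebraMap B DQ ψ b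
  let G : (MvPowerSeries (Fin 3) DQ.R →ₐ[B] DualNumber (ResidueField B)) → T :=
    fun ψ => ⟨frCoc F (tanOfBase B DQ ψ), hmem ψ⟩
  have hG : Function.Injective G := by
    intro ψ ψ' h
    have h1 : frCoc F (tanOfBase B DQ ψ) = frCoc F (tanOfBase B DQ ψ') :=
      congrArg Subtype.val h
    exact tanOfBase_injective B DQ (frCoc_injective hbc F h1)
  have hcard : Nat.card T ≤ Nat.card (ResidueField B) ^ r := by
    rw [Module.natCard_eq_pow_finrank (K := ResidueField 𝒪) (V := T),
      ← Nat.card_congr (resEquiv B DQ).toEquiv]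
    exact Nat.pow_le_pow_right Nat.card_pos hTr
  exact exists_surjective_of_card_le (isLocalHom_base (DQ := DQ) B)
    (residue_surjective_base (DQ := DQ) B) (tanAlgebra_algebraMap B) r G hG hcard

end Main

end

end Fermat.Agent.S38.H953
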