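import Fermat.Agent.S38.H953.RelP1

/-!
# Route T (Ihara avoidance), Galois side: the UNFRAMED relative presentation (helper953)

Board v2 of row HARD, item (3) GAL: no frames.  `DQ` a universal deformation ring of type `𝒟`,
`F : UFrame DQ` a matrix form `F.rR` of the universal deformation.

* `uCoc F φ` : the cocycle of a tangent vector `φ : DQ.R → k[ε]` (`σ ↦ ε-part of φ(F.rR σ) · ρ̄(σ)⁻¹`);
  `uCoc_type`, `uCoc_eq_zero`, `eq_of_isAdCoboundary_uCoc` (injective MODULO coboundaries);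
* `RelSelCob 𝒪 ρbar 𝒟 D g` : the tangent cocycles of type `𝒟` vanishing on `D` are represented,
  modulo coboundaries, by a space of dimension `≤ g`;
* `exists_surjective_of_relSelCob` : for a complete Noetherian local `𝒪`-algebra `B` and a
  `B`-algebra structure on `DQ.R` such that the entries of `F.rR σ`, `σ ∈ D`, come from `B`:
  `RelSelCob ⟹ B⟦x₁, …, x_g⟧ ↠ DQ.R`.

Nothing unproved in this file.
-/

set_option autoImplicit false
set_option linter.unusedSectionVars false
set_option linter.unusedVariables false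
set_option linter.style.haveILetI false

namespace Fermat.Agent.S38.H953

noncomputable section

open IsLocalRing TrivSqZeroExt
open Fermat.Agent.S56 Fermat.Agent.S56.H716 Fermat.Agent.S56.H596

/-! ### Coboundaries -/

section Cob

variable {k : Type} [Field k] (ρbar : ResidualGaloisRep k)

theorem isAdCoboundary_zero : IsAdCoboundary ρbar (0 : GQ → Module.End k ρbar.V) :=
  ⟨0, fun σ => by rw [mul_zero, zero_mul, sub_self]; rfl⟩

variable {ρbar}

theorem IsAdCoboundary.sub' {c c' : GQ → Module.End k ρbar.V} (h : IsAdCoboundary ρbar c)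
    (h' : IsAdCoboundary ρbar c') : IsAdCoboundary ρbar (c - c') := by
  obtain ⟨m, hm⟩ := h
  obtain ⟨m', hm'⟩ := h'
  refine ⟨m - m', fun σ => ?_⟩
  rw [Pi.sub_apply, hm σ, hm' σ, mul_sub, sub_mul]
  abel

end Cob

/-! ### The cocycle of a tangent vector of the universal ring -/

section Core

variable {𝒪 : Type} [CommRing 𝒪] [IsDomain 𝒪] [IsDiscreteValuationRing 𝒪]
  [IsAdicComplete (maximalIdeal 𝒪) 𝒪]
  {ρbar : ResidualGaloisRep (ResidueField 𝒪)} {𝒟 : DefCond 𝒪}
  {DQ : GaloisRep.DeformationRingData 𝒪 ρbar 𝒟}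

attribute [local instance] Fermat.Agent.S56.tanAlgebra

/-- Extension of a tangent vector of `DQ.R` to `DQ.R⟦Y⟧`, trivial on the variables. -/
def ofConst (φ : TanHom 𝒪 DQ.R) : TanHom 𝒪 (MvPowerSeries (Fin 3) DQ.R) :=
  { toRingHom := (φ : DQ.R →+* DualNumber (ResidueField 𝒪)).comp
      (MvPowerSeries.constantCoeff (σ := Fin 3) (R := DQ.R))
    commutes' := fun a => by
      show φ (MvPowerSeries.constantCoeff (algebraMap 𝒪 (MvPowerSeries (Fin 3) DQ.R) a)) = _
      rw [MvPowerSeries.algebraMap_apply, MvPowerSeries.constantCoeff_C]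
      exact φ.commutes a }

theorem ofConst_apply (φ : TanHom 𝒪 DQ.R) (f : MvPowerSeries (Fin 3) DQ.R) :
    ofConst φ f = φ (MvPowerSeries.constantCoeff f) := rfl

theorem tanC_ofConst (φ : TanHom 𝒪 DQ.R) : tanC (ofConst φ) = φ := by
  apply AlgHom.ext
  intro x
  rw [tanC_apply, ofConst_apply, MvPowerSeries.constantCoeff_C]

theorem frameZ_ofConst (φ : TanHom 𝒪 DQ.R) : frameZ (ofConst φ) = 0 := by
  have h : ∀ i : Fin 3, ofConst φ (MvPowerSeries.X i) = 0 := by
    intro i
    rw [ofConst_apply, MvPowerSeries.constantCoeff_X, map_zero]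
  ext i j
  fin_cases i <;> fin_cases j <;> simp [frameZ, h]

/-- **The cocycle of a tangent vector** of the universal deformation ring, computed in the
frame `F`. -/
def uCoc (F : UFrame DQ) (φ : TanHom 𝒪 DQ.R) : GQ → Module.End (ResidueField 𝒪) ρbar.V :=
  frCoc F (ofConst φ)

theorem cocMat_ofConst (F : UFrame DQ) (φ : TanHom 𝒪 DQ.R) (σ : GQ) :
    cocMat F.rb (frRep F (ofConst φ)) σ = cocMat F.rb (cRep F (ofConst φ)) σ := by
  rw [cocMat_frRep, frameZ_ofConst, mul_zero, zero_mul, sub_self, add_zero]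

theorem cRep_ofConst_apply (F : UFrame DQ) (φ : TanHom 𝒪 DQ.R) (σ : GQ) (i j : Fin 2) :
    cRep F (ofConst φ) σ i j = φ (F.rR σ i j) := by
  show tanC (ofConst φ) (F.rR σ i j) = _
  rw [tanC_ofConst]

/-- The cocycle of `φ` vanishes at `σ` as soon as `φ` has no `ε`-part on the entries of the
universal matrix `F.rR σ`. -/
theorem uCoc_eq_zero (F : UFrame DQ) (φ : TanHom 𝒪 DQ.R) (σ : GQ)
    (h : ∀ i j, TrivSqZeroExt.snd (φ (F.rR σ i j)) = 0) : uCoc F φ σ = 0 := by
  have hm1 : m1 (cRep F (ofConst φ) σ) = 0 := by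
    ext i j
    rw [m1_apply, cRep_ofConst_apply]
    exact h i j
  show matToEnd F.E (cocMat F.rb (frRep F (ofConst φ)) σ) = 0
  rw [cocMat_ofConst, cocMat_eq_zero_of_m1 σ hm1, map_zero]

/-- The type of the cocycle of a tangent vector. -/
theorem uCoc_type (p : ℕ) (hp : p.Prime)
    (hdet : ∀ ρ' : GaloisRepAdic (DualNumber (ResidueField 𝒪)), 𝒟 ρ' → ρ'.DetIsCyclotomic p)
    (hbc : ∀ (φ : TanHom 𝒪 DQ.R)
      (hφ : IsLocalHom (φ : DQ.R →+* DualNumber (ResidueField 𝒪))), Function.Surjective φ →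
      𝒟 (DQ.ρ.baseChangeAlong (φ : DQ.R →+* DualNumber (ResidueField 𝒪)) hφ))
    (F : UFrame DQ) (φ : TanHom 𝒪 DQ.R) :
    IsTanCocycle 𝒪 ρbar 𝒟 (uCoc F φ) ∨
      (IsAdCocycle ρbar (uCoc F φ) ∧ IsAdCoboundary ρbar (uCoc F φ)) :=
  frCoc_type p hp hdet hbc F (ofConst φ)

/-- Equivalent matrix representations have equal restrictions to the constants. -/
theorem tanC_eq_of_isEquiv
    (hbc : ∀ (φ : TanHom 𝒪 DQ.R)
      (hφ : IsLocalHom (φ : DQ.R →+* DualNumber (ResidueField 𝒪))), Function.Surjective φ →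
      𝒟 (DQ.ρ.baseChangeAlong (φ : DQ.R →+* DualNumber (ResidueField 𝒪)) hφ))
    (F : UFrame DQ) (ψ ψ' : TanHom 𝒪 (MvPowerSeries (Fin 3) DQ.R))
    (hmid : (Fermat.Agent.S53.toAdic (frRep F ψ) (matCont_frRep F ψ)).IsEquiv
      (Fermat.Agent.S53.toAdic (frRep F ψ') (matCont_frRep F ψ'))) : tanC ψ = tanC ψ' := by
  haveI hlocD := isLocalHom_tanAlgebra 𝒪
  haveI := isAdicComplete_dualNumber (ResidueField 𝒪)
  obtain ⟨e1⟩ := equiv_frRep F ψ
  obtain ⟨e2⟩ := equiv_frRep F ψ'
  obtain ⟨e3⟩ := hmid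
  have hφφ' : GaloisRepAdic.Equiv
      (DQ.ρ.baseChangeAlong (tanC ψ : DQ.R →+* DualNumber (ResidueField 𝒪))
        (isLocalHom_tanHom (tanC ψ)))
      (DQ.ρ.baseChangeAlong (tanC ψ' : DQ.R →+* DualNumber (ResidueField 𝒪))
        (isLocalHom_tanHom (tanC ψ'))) := (e1.trans e3).trans e2.symm
  by_cases hs' : Function.Surjective (tanC ψ')
  · have huniv := DQ.universal (DualNumber (ResidueField 𝒪)) (residue_tanAlgebra_surjective 𝒪)
      _ (hbc (tanC ψ') (isLocalHom_tanHom (tanC ψ')) hs') (residual_isEquiv_tanC F ψ')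
    exact huniv.unique ⟨isLocalHom_tanHom (tanC ψ), ⟨hφφ'⟩⟩
      ⟨isLocalHom_tanHom (tanC ψ'), ⟨GaloisRepAdic.Equiv.refl _⟩⟩
  · by_cases hs : Function.Surjective (tanC ψ)
    · have huniv := DQ.universal (DualNumber (ResidueField 𝒪))
        (residue_tanAlgebra_surjective 𝒪) _ (hbc (tanC ψ) (isLocalHom_tanHom (tanC ψ)) hs)
        (residual_isEquiv_tanC F ψ)
      exact huniv.unique ⟨isLocalHom_tanHom (tanC ψ), ⟨GaloisRepAdic.Equiv.refl _⟩⟩
        ⟨isLocalHom_tanHom (tanC ψ'), ⟨hφφ'.symm⟩⟩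
    · exact tanHom_eq_of_snd_eq_zero DQ.residue_surjective (tanC ψ) (tanC ψ')
        (snd_tanC_eq_zero ψ hs) (snd_tanC_eq_zero ψ' hs')

/-- **Injectivity modulo coboundaries**: tangent vectors with cohomologous cocycles are
equal. -/
theorem eq_of_isAdCoboundary_uCoc
    (hbc : ∀ (φ : TanHom 𝒪 DQ.R)
      (hφ : IsLocalHom (φ : DQ.R →+* DualNumber (ResidueField 𝒪))), Function.Surjective φ →
      𝒟 (DQ.ρ.baseChangeAlong (φ : DQ.R →+* DualNumber (ResidueField 𝒪)) hφ))
    (F : UFrame DQ) (φ φ' : TanHom 𝒪 DQ.R)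
    (hcob : IsAdCoboundary ρbar (uCoc F φ - uCoc F φ')) : φ = φ' := by
  obtain ⟨m, hm⟩ := hcob
  have hM : ∀ σ, cocMat F.rb (frRep F (ofConst φ)) σ - cocMat F.rb (frRep F (ofConst φ')) σ =
      F.rb σ * (matToEnd F.E).symm m * F.rb σ⁻¹ - (matToEnd F.E).symm m := by
    intro σ
    apply (matToEnd F.E).injective
    rw [map_sub, map_sub, map_mul, map_mul, RingEquiv.apply_symm_apply,
      ← rho_eq_matToEnd F.hE, ← rho_eq_matToEnd F.hE]
    exact hm σ
  have hconj : (Fermat.Agent.S53.toAdic (frRep F (ofConst φ)) (matCont_frRep F _)).IsEquiv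
      (Fermat.Agent.S53.toAdic (frRep F (ofConst φ')) (matCont_frRep F _)) := by
    rw [Fermat.Agent.S53.toAdic_isEquiv_iff]
    exact ⟨dunit ((matToEnd F.E).symm m), fun σ =>
      dmk_mul_eq_of_coboundary (m0_frRep F _) (m0_frRep F _) _ hM σ⟩
  have h := tanC_eq_of_isEquiv hbc F (ofConst φ) (ofConst φ') hconj
  rwa [tanC_ofConst, tanC_ofConst] at h

end Core

/-! ### Change of base, general form -/

section BaseG

variable {𝒪 : Type} [CommRing 𝒪] [IsLocalRing 𝒪]
  {R : Type} [CommRing R] [IsLocalRing R] [Algebra 𝒪 R]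
  (hlocR : IsLocalHom (algebraMap 𝒪 R))
  (hresR : Function.Surjective (residue R ∘ algebraMap 𝒪 R))
  (B : Type) [CommRing B] [IsLocalRing B] [Algebra 𝒪 B] [Algebra B R] [IsScalarTower 𝒪 B R]

attribute [local instance] Fermat.Agent.S56.tanAlgebra

include hresR in
theorem isLocalHom_baseG : IsLocalHom (algebraMap B R) :=
  isLocalHom_of_residue_surjective hresR (IsScalarTower.toAlgHom 𝒪 B R)

include hresR in
theorem residue_surjective_baseG :
    Function.Surjective (residue R ∘ algebraMap B R) := by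
  intro y
  obtain ⟨a, ha⟩ := hresR y
  refine ⟨algebraMap 𝒪 B a, ?_⟩
  rw [Function.comp_apply] at ha ⊢
  rw [← ha, ← IsScalarTower.algebraMap_apply]

include hlocR in
theorem isLocalHom_to_baseG : IsLocalHom (algebraMap 𝒪 B) := by
  refine ⟨fun a ha => ?_⟩
  have h1 : IsUnit (algebraMap 𝒪 R a) := by
    rw [IsScalarTower.algebraMap_apply 𝒪 B R]
    exact ha.map _
  exact hlocR.map_nonunit a h1

include hresR in
theorem residue_surjective_to_baseG :
    Function.Surjective (residue B ∘ algebraMap 𝒪 B) := by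
  intro y
  obtain ⟨b, rfl⟩ := residue_surjective y
  obtain ⟨a, ha⟩ := hresR (residue _ (algebraMap B R b))
  refine ⟨a, ?_⟩
  rw [Function.comp_apply] at ha ⊢
  rw [IsScalarTower.algebraMap_apply 𝒪 B R, ← sub_eq_zero, ← map_sub, ← map_sub,
    residue_eq_zero_iff] at ha
  rw [← sub_eq_zero, ← map_sub, residue_eq_zero_iff]
  by_contra hcon
  have hu : IsUnit (algebraMap 𝒪 B a - b) := by
    by_contra hnu
    exact hcon ((mem_maximalIdeal _).2 hnu)
  exact (mem_maximalIdeal _).1 ha (hu.map _)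

/-- The residue fields of `𝒪` and of the base `B` agree. -/
def resEquivG : ResidueField 𝒪 ≃+* ResidueField B :=
  haveI := isLocalHom_to_baseG hlocR B
  RingEquiv.ofBijective (ResidueField.map (algebraMap 𝒪 B))
    ⟨(ResidueField.map (algebraMap 𝒪 B)).injective, fun y => by
      obtain ⟨a, ha⟩ := residue_surjective_to_baseG hresR B y
      exact ⟨residue 𝒪 a, by rw [ResidueField.map_residue]; exact ha⟩⟩

theorem resEquivG_symm_residue (a : 𝒪) :
    (resEquivG hlocR hresR B).symm (residue B (algebraMap 𝒪 B a)) = residue 𝒪 a := by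
  haveI := isLocalHom_to_baseG hlocR B
  have h : resEquivG hlocR hresR B (residue 𝒪 a) = residue B (algebraMap 𝒪 B a) :=
    ResidueField.map_residue (algebraMap 𝒪 B) a
  rw [← h, RingEquiv.symm_apply_apply]

/-- Transport of a tangent vector over `B` to a tangent vector over `𝒪`. -/
def tanOfBaseG (ψ : R →ₐ[B] DualNumber (ResidueField B)) : TanHom 𝒪 R :=
  { toRingHom := (dualMap ((resEquivG hlocR hresR B).symm : ResidueField B →+* ResidueField 𝒪)).comp
      (ψ : R →+* DualNumber (ResidueField B))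
    commutes' := fun a => by
      show dualMap _ (ψ (algebraMap 𝒪 R a)) = _
      rw [IsScalarTower.algebraMap_apply 𝒪 B R, AlgHom.commutes,
        tanAlgebra_algebraMap, dualMap_inl, tanAlgebra_algebraMap]
      congr 1
      exact resEquivG_symm_residue hlocR hresR B a }

theorem tanOfBaseG_apply (ψ : R →ₐ[B] DualNumber (ResidueField B)) (f : R) :
    tanOfBaseG hlocR hresR B ψ f =
      dualMap ((resEquivG hlocR hresR B).symm : ResidueField B →+* ResidueField 𝒪) (ψ f) := rfl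

theorem tanOfBaseG_injective : Function.Injective (tanOfBaseG hlocR hresR B) := by
  intro ψ ψ' h
  apply AlgHom.ext
  intro f
  apply dualMap_injective ((resEquivG hlocR hresR B).symm : ResidueField B →+* ResidueField 𝒪)
  rw [← tanOfBaseG_apply, ← tanOfBaseG_apply, h]

theorem snd_tanOfBaseG_algebraMap (ψ : R →ₐ[B] DualNumber (ResidueField B)) (b : B) :
    TrivSqZeroExt.snd (tanOfBaseG hlocR hresR B ψ (algebraMap B R b)) = 0 := by
  rw [tanOfBaseG_apply, AlgHom.commutes, tanAlgebra_algebraMap, dualMap_inl,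
    TrivSqZeroExt.snd_inl]

end BaseG

/-! ### The relative Selmer bound modulo coboundaries (frozen shape) -/

section RelSelCobDef

variable (𝒪 : Type) [CommRing 𝒪] [IsLocalRing 𝒪]
  (ρbar : ResidualGaloisRep (ResidueField 𝒪))

/-- **(REL-SEL-COB)** the tangent cocycles of type `𝒟` which VANISH on the set `D` are
represented, modulo (global) coboundaries, by a `k`-space of dimension `≤ g`. -/
def RelSelCob (𝒟 : DefCond 𝒪) (D : Set GQ) (g : ℕ) : Prop :=
  ∃ T : Submodule (ResidueField 𝒪) (GQ → Module.End (ResidueField 𝒪) ρbar.V),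
    Module.Finite (ResidueField 𝒪) T ∧ Module.finrank (ResidueField 𝒪) T ≤ g ∧
    ∀ c, IsTanCocycle 𝒪 ρbar 𝒟 c → (∀ σ ∈ D, c σ = 0) → ∃ t ∈ T, IsAdCoboundary ρbar (c - t)

end RelSelCobDef

/-! ### The unframed relative presentation -/

section MainU

variable {𝒪 : Type} [CommRing 𝒪] [IsDomain 𝒪] [IsDiscreteValuationRing 𝒪]
  [IsAdicComplete (maximalIdeal 𝒪) 𝒪]
  {ρbar : ResidualGaloisRep (ResidueField 𝒪)} {𝒟 : DefCond 𝒪}
  {DQ : GaloisRep.DeformationRingData 𝒪 ρbar 𝒟}

attribute [local instance] Fermat.Agent.S56.tanAlgebra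

/-- **(REL-P1, no frames)**: if the tangent cocycles of type `𝒟` vanishing on `D` are represented
modulo coboundaries by a space of dimension `≤ g`, and the universal matrices `F.rR σ`, `σ ∈ D`,
have their entries in (the image of) the complete Noetherian local `𝒪`-algebra `B`, then the
universal deformation ring `DQ.R` is a quotient of `B⟦x₁, …, x_g⟧`. -/
theorem exists_surjective_of_relSelCob [Finite (ResidueField 𝒪)]
    {B : Type} [CommRing B] [IsLocalRing B] [Algebra 𝒪 B]
    [Algebra B DQ.R] [IsScalarTower 𝒪 B DQ.R]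
    [IsNoetherianRing B] [IsAdicComplete (maximalIdeal B) B]
    (p : ℕ) (hp : p.Prime)
    (hdet : ∀ ρ' : GaloisRepAdic (DualNumber (ResidueField 𝒪)), 𝒟 ρ' → ρ'.DetIsCyclotomic p)
    (hbc : ∀ (φ : TanHom 𝒪 DQ.R)
      (hφ : IsLocalHom (φ : DQ.R →+* DualNumber (ResidueField 𝒪))), Function.Surjective φ →
      𝒟 (DQ.ρ.baseChangeAlong (φ : DQ.R →+* DualNumber (ResidueField 𝒪)) hφ))
    (F : UFrame DQ) (D : Set GQ)
    (hD : ∀ σ ∈ D, ∀ i j, F.rR σ i j ∈ Set.range (algebraMap B DQ.R))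
    (g : ℕ) (hsel : RelSelCob 𝒪 ρbar 𝒟 D g) :
    ∃ γ : MvPowerSeries (Fin g) B →ₐ[B] DQ.R, Function.Surjective γ := by
  classical
  obtain ⟨T, hTfin, hTr, hT⟩ := hsel
  haveI := hTfin
  have hlocR : IsLocalHom (algebraMap 𝒪 DQ.R) := DQ.instIsLocalHom
  have hresR := DQ.residue_surjective
  haveI : Finite (ResidueField B) := Finite.of_equiv _ (resEquivG hlocR hresR B).toEquiv
  haveI : Finite T := Module.finite_of_finite (ResidueField 𝒪)
  -- every cocycle of a `B`-tangent vector is represented in `T`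
  have hrep : ∀ ψ : DQ.R →ₐ[B] DualNumber (ResidueField B),
      ∃ t ∈ T, IsAdCoboundary ρbar (uCoc F (tanOfBaseG hlocR hresR B ψ) - t) := by
    intro ψ
    have hvan : ∀ σ ∈ D, uCoc F (tanOfBaseG hlocR hresR B ψ) σ = 0 := by
      intro σ hσ
      refine uCoc_eq_zero F _ σ (fun i j => ?_)
      obtain ⟨b, hb⟩ := hD σ hσ i j
      rw [← hb]
      exact snd_tanOfBaseG_algebraMap hlocR hresR B ψ b
    rcases uCoc_type p hp hdet hbc F (tanOfBaseG hlocR hresR B ψ) with h | h
    · exact hT _ h hvan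
    · exact ⟨0, T.zero_mem, by rw [sub_zero]; exact h.2⟩
  choose t ht hcob using hrep
  let G : (DQ.R →ₐ[B] DualNumber (ResidueField B)) → T := fun ψ => ⟨t ψ, ht ψ⟩
  have hG : Function.Injective G := by
    intro ψ ψ' h
    have h1 : t ψ = t ψ' := congrArg Subtype.val h
    have h2 : IsAdCoboundary ρbar (uCoc F (tanOfBaseG hlocR hresR B ψ) -
        uCoc F (tanOfBaseG hlocR hresR B ψ')) := by
      have h3 := IsAdCoboundary.sub' (hcob ψ) (hcob ψ')
      rw [h1] at h3
      have h4 : uCoc F (tanOfBaseG hlocR hresR B ψ) - t ψ' -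
          (uCoc F (tanOfBaseG hlocR hresR B ψ') - t ψ') =
          uCoc F (tanOfBaseG hlocR hresR B ψ) - uCoc F (tanOfBaseG hlocR hresR B ψ') := by
        abel
      rwa [h4] at h3
    exact tanOfBaseG_injective hlocR hresR B (eq_of_isAdCoboundary_uCoc hbc F _ _ h2)
  have hcard : Nat.card T ≤ Nat.card (ResidueField B) ^ g := by
    rw [Module.natCard_eq_pow_finrank (K := ResidueField 𝒪) (V := T),
      ← Nat.card_congr (resEquivG hlocR hresR B).toEquiv]
    exact Nat.pow_le_pow_right Nat.card_pos hTr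
  exact exists_surjective_of_card_le (isLocalHom_baseG hresR B)
    (residue_surjective_baseG hresR B) (tanAlgebra_algebraMap B) g G hG hcard

end MainU

end

end Fermat.Agent.S38.H953
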