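import Fermat.Agent.S38.H953.Unframed

/-!
# Route T (Ihara avoidance), Galois side: presentation over a power series base (helper953)

Board v2 of row HARD, item (3) GAL, in the form used by the patching: the base is the power
series ring `P = 𝒪⟦X_i : i ∈ ι⟧` on the matrix entries (`ι` = the 8 entries of `Φ − Φ₀`, `Σ − 1`
for every pivot prime).

* `exists_surjective_powerSeries_of_relSelCob` : let `x : ι → 𝔪_R`, `R = DQ.R`, be elements such
  that the entries of the universal matrices `F.rR σ`, `σ ∈ D`, lie in the `𝒪`-subalgebra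
  generated by the `x i`.  If the tangent cocycles of type `𝒟` vanishing on `D` are represented
  modulo coboundaries by a space of dimension `≤ g`, then there is a surjection
  `γ : 𝒪⟦X_i (i ∈ ι), x₁, …, x_g⟧ ↠ DQ.R` with `γ (X_i) = x i`.

Nothing unproved in this file.
-/

set_option autoImplicit false
set_option linter.unusedSectionVars false
set_option linter.unusedVariables false
set_option linter.style.haveILetI false

namespace Fermat.Agent.S38.H953

noncomputable section

open IsLocalRing TrivSqZeroExt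
open Fermat.Agent.S56 Fermat.Agent.S56.H716 Fermat.Agent.S56.H596 Fermat.Agent.S53.H596

section CommAlg

variable {𝒪 : Type} [CommRing 𝒪] [IsLocalRing 𝒪] [IsNoetherianRing 𝒪]
  [IsAdicComplete (maximalIdeal 𝒪) 𝒪]
  {R : Type} [CommRing R] [IsLocalRing R] [IsAdicComplete (maximalIdeal R) R] [Algebra 𝒪 R]

/-- A surjection `𝒪⟦ι⟧⟦x₁..x_g⟧ ↠ R` (for the `𝒪⟦ι⟧`-algebra structure `X_i ↦ x i` on `R`) gives a
surjection `𝒪⟦ι ⊕ Fin g⟧ ↠ R` with `X_i ↦ x i`. -/
theorem exists_surjective_sum {ι : Type} [Finite ι] (x : ι → R)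
    (hx : ∀ i, x i ∈ maximalIdeal R)
    (hres : Function.Surjective (residue R ∘ algebraMap 𝒪 R)) (g : ℕ)
    (h : letI : Algebra (MvPowerSeries ι 𝒪) R :=
        (evalCNL (R := 𝒪) (maximalIdeal R) x hx : MvPowerSeries ι 𝒪 →+* R).toAlgebra
      ∃ γ : MvPowerSeries (Fin g) (MvPowerSeries ι 𝒪) →ₐ[MvPowerSeries ι 𝒪] R,
        Function.Surjective γ) :
    ∃ γ : MvPowerSeries (ι ⊕ Fin g) 𝒪 →ₐ[𝒪] R,
      Function.Surjective γ ∧ ∀ i, γ (MvPowerSeries.X (Sum.inl i)) = x i := by
  classical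
  letI : Algebra (MvPowerSeries ι 𝒪) R :=
    (evalCNL (R := 𝒪) (maximalIdeal R) x hx : MvPowerSeries ι 𝒪 →+* R).toAlgebra
  obtain ⟨γB, hγB⟩ := h
  have halg : ∀ f : MvPowerSeries ι 𝒪, algebraMap (MvPowerSeries ι 𝒪) R f =
      evalCNL (R := 𝒪) (maximalIdeal R) x hx f := fun f => rfl
  -- the images of the variables
  have hy : ∀ j, γB (MvPowerSeries.X j) ∈ maximalIdeal R := by
    intro j
    rw [mem_maximalIdeal, mem_nonunits_iff]
    intro hu
    -- `1 - u⁻¹ X_j` is a unit mapping to `0`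
    obtain ⟨f, hf⟩ := hγB (↑hu.unit⁻¹ : R)
    have h1 : IsUnit (1 - f * MvPowerSeries.X j) := by
      rw [MvPowerSeries.isUnit_iff_constantCoeff]
      simp
    have h2 := h1.map γB
    rw [map_sub, map_one, map_mul, hf] at h2
    have h3 : (↑hu.unit⁻¹ : R) * γB (MvPowerSeries.X j) = 1 := by
      have := hu.unit.inv_mul
      rwa [IsUnit.unit_spec] at this
    rw [h3, sub_self] at h2
    exact not_isUnit_zero h2
  let y : Fin g → R := fun j => γB (MvPowerSeries.X j)
  have hxy : ∀ i : ι ⊕ Fin g, Sum.elim x y i ∈ maximalIdeal R := by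
    rintro (i | j)
    · exact hx i
    · exact hy j
  refine ⟨evalCNL (R := 𝒪) (maximalIdeal R) (Sum.elim x y) hxy, ?_,
    fun i => by rw [evalCNL_X]; rfl⟩
  apply surjective_of_map_maximalIdeal _ hres
  have hfun : (fun i => evalCNL (R := 𝒪) (maximalIdeal R) (Sum.elim x y) hxy
      (MvPowerSeries.X i)) = Sum.elim x y := funext fun i => evalCNL_X _ _ _ i
  rw [hfun]
  apply le_antisymm
  · refine sup_le ?_ ?_
    · rw [Ideal.map_le_iff_le_comap]
      intro c hc
      rw [Ideal.mem_comap]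
      obtain ⟨a, ha⟩ := hres 0
      by_contra hcon
      have hu : IsUnit (algebraMap 𝒪 R c) := by
        by_contra hnu
        exact hcon ((mem_maximalIdeal _).2 hnu)
      -- `𝒪 → R` is local because the residue field of `R` is that of `𝒪`
      have hloc : IsLocalHom (algebraMap 𝒪 R) := by
        refine ⟨fun b hb => ?_⟩
        by_contra hnb
        have hbm : b ∈ maximalIdeal 𝒪 := (mem_maximalIdeal _).2 hnb
        -- `1 - b * t` is a unit for every `t`, in particular for a lift of `(algebraMap b)⁻¹`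
        obtain ⟨t, ht⟩ := hres (residue R (↑hb.unit⁻¹ : R))
        have h1 : IsUnit (1 - b * t) := by
          by_contra hnu
          have h2 : (1 : 𝒪) - b * t ∈ maximalIdeal 𝒪 := (mem_maximalIdeal _).2 hnu
          have h3 := Ideal.add_mem _ h2 (Ideal.mul_mem_right t _ hbm)
          rw [sub_add_cancel] at h3
          exact (mem_maximalIdeal (1 : 𝒪)).1 h3 isUnit_one
        have h4 := h1.map (algebraMap 𝒪 R)
        have h5 : residue R (algebraMap 𝒪 R (1 - b * t)) = 0 := by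
          rw [map_sub, map_one, map_mul, map_sub, map_one, map_mul]
          rw [Function.comp_apply] at ht
          rw [ht, ← map_mul]
          have := hb.unit.mul_inv
          rw [IsUnit.unit_spec] at this
          rw [this, map_one, sub_self]
        exact ((residue_eq_zero_iff _).1 h5) h4
      exact hc (hloc.map_nonunit c hu)
    · rw [Ideal.span_le]
      rintro _ ⟨i, rfl⟩
      exact hxy i
  · intro r hr
    obtain ⟨f, rfl⟩ := hγB r
    have hf : f ∈ maximalIdeal (MvPowerSeries (Fin g) (MvPowerSeries ι 𝒪)) := by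
      rw [mem_maximalIdeal, mem_nonunits_iff]
      intro hu
      exact (mem_maximalIdeal _).1 hr (hu.map γB)
    have h1 : γB f ∈ Ideal.map γB
        (maximalIdeal (MvPowerSeries (Fin g) (MvPowerSeries ι 𝒪))) :=
      Ideal.mem_map_of_mem _ hf
    rw [map_maximalIdeal_mvPowerSeries γB] at h1
    have h2 : Ideal.map (algebraMap (MvPowerSeries ι 𝒪) R) (maximalIdeal (MvPowerSeries ι 𝒪)) ≤
        Ideal.map (algebraMap 𝒪 R) (maximalIdeal 𝒪) ⊔ Ideal.span (Set.range (Sum.elim x y)) := by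
      have h3 := map_maximalIdeal_mvPowerSeries
        (evalCNL (R := 𝒪) (maximalIdeal R) x hx)
      have h4 : Ideal.map (algebraMap (MvPowerSeries ι 𝒪) R)
          (maximalIdeal (MvPowerSeries ι 𝒪)) =
          Ideal.map (evalCNL (R := 𝒪) (maximalIdeal R) x hx)
            (maximalIdeal (MvPowerSeries ι 𝒪)) := rfl
      rw [h4, h3]
      refine sup_le le_sup_left ?_
      rw [Ideal.span_le]
      rintro _ ⟨i, rfl⟩
      show evalCNL (R := 𝒪) (maximalIdeal R) x hx (MvPowerSeries.X i) ∈ _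
      rw [evalCNL_X]
      exact Ideal.mem_sup_right (Ideal.subset_span ⟨Sum.inl i, rfl⟩)
    have h5 : Ideal.span (Set.range fun j => γB (MvPowerSeries.X j)) ≤
        Ideal.map (algebraMap 𝒪 R) (maximalIdeal 𝒪) ⊔ Ideal.span (Set.range (Sum.elim x y)) := by
      rw [Ideal.span_le]
      rintro _ ⟨j, rfl⟩
      exact Ideal.mem_sup_right (Ideal.subset_span ⟨Sum.inr j, rfl⟩)
    exact (sup_le h2 h5) h1

end CommAlg

section MainP8

variable {𝒪 : Type} [CommRing 𝒪] [IsDomain 𝒪] [IsDiscreteValuationRing 𝒪]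
  [IsAdicComplete (maximalIdeal 𝒪) 𝒪]
  {ρbar : ResidualGaloisRep (ResidueField 𝒪)} {𝒟 : DefCond 𝒪}
  {DQ : GaloisRep.DeformationRingData 𝒪 ρbar 𝒟}

attribute [local instance] Fermat.Agent.S56.tanAlgebra

/-- **(REL-P1, no frames, power series base).**  Let `x : ι → 𝔪_R` (`R = DQ.R`) be such that the
entries of the universal matrices `F.rR σ`, `σ ∈ D`, lie in the `𝒪`-subalgebra generated by the
`x i`.  If the tangent cocycles of type `𝒟` vanishing on `D` are represented modulo coboundaries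
by a space of dimension `≤ g`, then `DQ.R` is a quotient of `𝒪⟦X_i (i ∈ ι), x₁, …, x_g⟧`, with
`X_i ↦ x i`. -/
theorem exists_surjective_powerSeries_of_relSelCob [Finite (ResidueField 𝒪)]
    (p : ℕ) (hp : p.Prime)
    (hdet : ∀ ρ' : GaloisRepAdic (DualNumber (ResidueField 𝒪)), 𝒟 ρ' → ρ'.DetIsCyclotomic p)
    (hbc : ∀ (φ : TanHom 𝒪 DQ.R)
      (hφ : IsLocalHom (φ : DQ.R →+* DualNumber (ResidueField 𝒪))), Function.Surjective φ →
      𝒟 (DQ.ρ.baseChangeAlong (φ : DQ.R →+* DualNumber (ResidueField 𝒪)) hφ))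
    (F : UFrame DQ) (D : Set GQ)
    {ι : Type} [Finite ι] (x : ι → DQ.R) (hx : ∀ i, x i ∈ maximalIdeal DQ.R)
    (hD : ∀ σ ∈ D, ∀ i j, F.rR σ i j ∈ Algebra.adjoin 𝒪 (Set.range x))
    (g : ℕ) (hsel : RelSelCob 𝒪 ρbar 𝒟 D g) :
    ∃ γ : MvPowerSeries (ι ⊕ Fin g) 𝒪 →ₐ[𝒪] DQ.R,
      Function.Surjective γ ∧ ∀ i, γ (MvPowerSeries.X (Sum.inl i)) = x i := by
  refine exists_surjective_sum x hx DQ.residue_surjective g ?_
  letI : Algebra (MvPowerSeries ι 𝒪) DQ.R :=
    (evalCNL (R := 𝒪) (maximalIdeal DQ.R) x hx : MvPowerSeries ι 𝒪 →+* DQ.R).toAlgebra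
  haveI : IsScalarTower 𝒪 (MvPowerSeries ι 𝒪) DQ.R :=
    IsScalarTower.of_algebraMap_eq fun a =>
      ((evalCNL (R := 𝒪) (maximalIdeal DQ.R) x hx).commutes a).symm
  haveI : IsAdicComplete (maximalIdeal (MvPowerSeries ι 𝒪)) (MvPowerSeries ι 𝒪) :=
    isAdicComplete_mvPowerSeries
  refine exists_surjective_of_relSelCob (B := MvPowerSeries ι 𝒪) p hp hdet hbc F D ?_ g hsel
  intro σ hσ i j
  have hle : Algebra.adjoin 𝒪 (Set.range x) ≤
      (evalCNL (R := 𝒪) (maximalIdeal DQ.R) x hx).range := by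
    apply Algebra.adjoin_le
    rintro _ ⟨i, rfl⟩
    exact ⟨MvPowerSeries.X i, evalCNL_X _ _ _ i⟩
  obtain ⟨f, hf⟩ := hle (hD σ hσ i j)
  exact ⟨f, hf⟩

end MainP8

end

end Fermat.Agent.S38.H953
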